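import Mathlib.NumberTheory.FLT.Three
import Mathlib.NumberTheory.NumberField.Cyclotomic.Ideal

/-!
# Basic facts about `ℤ[ζ_p]` used in the Kummer descent (helper library for S10/S11)
-/

namespace Fermat.Agent.Kummer

open NumberField Polynomial Finset

variable {p : ℕ} [hp : Fact p.Prime] {K : Type*} [Field K] [NumberField K]
  [hK : IsCyclotomicExtension {p} ℚ K] {ζ : K} (hζ : IsPrimitiveRoot ζ p)

/-- Every element of `𝓞 K` is the value at `ζ` of an integer polynomial. -/
lemma exists_aeval_eq (x : 𝓞 K) : ∃ f : ℤ[X], x = aeval hζ.toInteger f := by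
  have := (hζ.integralPowerBasis).exists_eq_aeval' x
  rwa [hζ.integralPowerBasis_gen] at this

omit hp [NumberField K] hK in
lemma zeta_pow_p [NeZero p] : hζ.toInteger ^ p = 1 :=
  hζ.toInteger_isPrimitiveRoot.pow_eq_one

/-- Every element of `𝓞 K` is congruent to an integer modulo `ζ - 1`. -/
lemma exists_int_sub_dvd (x : 𝓞 K) : ∃ n : ℤ, hζ.toInteger - 1 ∣ x - n := by
  obtain ⟨f, rfl⟩ := exists_aeval_eq hζ x
  refine ⟨f.eval 1, ?_⟩
  have h := Polynomial.sub_dvd_eval_sub hζ.toInteger 1 (f.map (algebraMap ℤ (𝓞 K)))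
  rw [eval_map_algebraMap, eval_one_map] at h
  simpa using h

include hζ in
/-- `x ^ p` is congruent to an integer modulo `p`. -/
lemma exists_int_pow_sub_dvd (x : 𝓞 K) : ∃ n : ℤ, (p : 𝓞 K) ∣ x ^ p - n := by
  obtain ⟨f, rfl⟩ := exists_aeval_eq hζ x
  induction f using Polynomial.induction_on' with
  | add f g hf hg =>
    obtain ⟨n, hn⟩ := hf
    obtain ⟨m, hm⟩ := hg
    refine ⟨n + m, ?_⟩
    obtain ⟨r, hr⟩ := exists_add_pow_prime_eq hp.out (aeval hζ.toInteger f) (aeval hζ.toInteger g)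
    rw [map_add, hr]
    have : aeval hζ.toInteger f ^ p + aeval hζ.toInteger g ^ p +
        (p : 𝓞 K) * aeval hζ.toInteger f * aeval hζ.toInteger g * r - ((n + m : ℤ) : 𝓞 K) =
        (aeval hζ.toInteger f ^ p - n) + (aeval hζ.toInteger g ^ p - m) +
        (p : 𝓞 K) * (aeval hζ.toInteger f * aeval hζ.toInteger g * r) := by
      push_cast; ring
    rw [this]
    exact dvd_add (dvd_add hn hm) (dvd_mul_right _ _)
  | monomial k a =>
    refine ⟨a ^ p, ?_⟩
    rw [aeval_monomial, mul_pow, ← pow_mul, mul_comm k p, pow_mul, zeta_pow_p hζ, one_pow, mul_one]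
    simp
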