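import Mathlib

/-!
# Case I of Fermat's Last Theorem for `p = 5, 7, 11, 13` (Sophie Germain – Legendre)

Elementary, in `ℤ`.  Main results (namespace `Fermat.Agent.Kummer`):

* `sophieGermain` : the general criterion with an auxiliary prime `q`;
* `caseI_five`, `caseI_seven`, `caseI_eleven`, `caseI_thirteen` :
  `IsCoprime a b → a ^ p + b ^ p = c ^ p → (p : ℤ) ∣ a * b * c`.
-/

set_option autoImplicit false

namespace Fermat.Agent.Kummer

open Finset

/-- The cofactor `(u ^ p + v ^ p) / (u + v)` for odd `p`. -/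
def sgCofactor {R : Type*} [CommRing R] (p : ℕ) (u v : R) : R :=
  ∑ i ∈ range p, u ^ i * (-v) ^ (p - 1 - i)

theorem sgCofactor_mul {R : Type*} [CommRing R] {p : ℕ} (hp : Odd p) (u v : R) :
    sgCofactor p u v * (u + v) = u ^ p + v ^ p := by
  have h := Commute.geom_sum₂_mul (Commute.all u (-v)) p
  rw [sub_neg_eq_add, hp.neg_pow, sub_neg_eq_add] at h
  exact h

theorem sgCofactor_map {R S : Type*} [CommRing R] [CommRing S] (f : R →+* S) (p : ℕ) (u v : R) :
    f (sgCofactor p u v) = sgCofactor p (f u) (f v) := by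
  simp [sgCofactor, map_sum, map_mul, map_pow, map_neg]

/-- If `v = -u` then the cofactor is `p * u ^ (p - 1)`. -/
theorem sgCofactor_neg_self {R : Type*} [CommRing R] (p : ℕ) (u : R) :
    sgCofactor p u (-u) = p * u ^ (p - 1) := by
  unfold sgCofactor
  rw [neg_neg]
  have : ∀ i ∈ range p, u ^ i * u ^ (p - 1 - i) = u ^ (p - 1) := by
    intro i hi
    rw [← pow_add]
    congr 1
    have := mem_range.1 hi
    omega
  rw [sum_congr rfl this, sum_const, card_range, nsmul_eq_mul]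

/-- If `u = 0` then the cofactor is `v ^ (p - 1)` (for odd `p`). -/
theorem sgCofactor_zero_left {R : Type*} [CommRing R] {p : ℕ} (hp : Odd p) (v : R) :
    sgCofactor p 0 v = v ^ (p - 1) := by
  unfold sgCofactor
  have hp0 : 0 < p := hp.pos
  rw [sum_eq_single 0]
  · rw [pow_zero, one_mul, Nat.sub_zero]
    have : Even (p - 1) := by
      obtain ⟨k, hk⟩ := hp
      exact ⟨k, by omega⟩
    exact this.neg_pow v
  · intro i _ hi
    rw [zero_pow hi, zero_mul]
  · intro h
    exact absurd (mem_range.2 hp0) h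

/-- the two factors of `u ^ p + v ^ p` are coprime when `u, v` are coprime and
`p ∤ u + v`. -/
theorem sgCofactor_isCoprime {p : ℕ} (hpp : p.Prime) {u v : ℤ} (huv : IsCoprime u v)
    (hpuv : ¬ (p : ℤ) ∣ u + v) : IsCoprime (u + v) (sgCofactor p u v) := by
  -- the cofactor is `p * u ^ (p-1)` modulo `u + v`
  have hmod : (u + v) ∣ sgCofactor p u v - p * u ^ (p - 1) := by
    rw [← sgCofactor_neg_self p u]
    unfold sgCofactor
    rw [← sum_sub_distrib]
    apply dvd_sum
    intro i _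
    rw [← mul_sub]
    apply Dvd.dvd.mul_left
    rw [neg_neg]
    have h := sub_dvd_pow_sub_pow (-v) u (p - 1 - i)
    have e : -v - u = -(u + v) := by ring
    rw [e, neg_dvd] at h
    exact h
  obtain ⟨k, hk⟩ := hmod
  have e : sgCofactor p u v = p * u ^ (p - 1) + (u + v) * k := by linarith
  rw [e]
  apply IsCoprime.add_mul_left_right
  apply IsCoprime.mul_right
  · have hprime : Prime (p : ℤ) := Nat.prime_iff_prime_int.1 hpp
    exact (hprime.coprime_iff_not_dvd.2 hpuv).symm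
  · apply IsCoprime.pow_right
    have : IsCoprime (v + u * 1) u := (IsCoprime.add_mul_left_left_iff).2 huv.symm
    rwa [mul_one, add_comm] at this

/-- Core of Sophie Germain's argument: the auxiliary prime cannot divide `x`. -/
theorem sophieGermain_core (p q : ℕ) [hp : Fact p.Prime] [hq : Fact q.Prime] (hp2 : p ≠ 2)
    (h1 : ∀ x y z : ZMod q, x ^ p + y ^ p + z ^ p = 0 → x = 0 ∨ y = 0 ∨ z = 0)
    (h2 : ∀ x : ZMod q, x ^ p ≠ (p : ZMod q))
    (x y z : ℤ) (H : x ^ p + y ^ p + z ^ p = 0)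
    (hxy : IsCoprime x y) (hyz : IsCoprime y z) (hzx : IsCoprime z x)
    (hpx : ¬ (p : ℤ) ∣ x) (hpy : ¬ (p : ℤ) ∣ y) (hpz : ¬ (p : ℤ) ∣ z)
    (hqx : (q : ℤ) ∣ x) : False := by
  have hpp : p.Prime := hp.out
  have hqq : q.Prime := hq.out
  have hodd : Odd p := hpp.odd_of_ne_two hp2
  have hprime : Prime (p : ℤ) := Nat.prime_iff_prime_int.1 hpp
  have hqprime : Prime (q : ℤ) := Nat.prime_iff_prime_int.1 hqq
  -- p does not divide the sums
  have hsum : ∀ u v w : ℤ, u ^ p + v ^ p + w ^ p = 0 → ¬ (p : ℤ) ∣ w → ¬ (p : ℤ) ∣ u + v := by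
    intro u v w huvw hw hdiv
    have h1 : (u + v) ∣ u ^ p + v ^ p := hodd.add_dvd_pow_add_pow u v
    have h2 : (p : ℤ) ∣ w ^ p := by
      have : w ^ p = -(u ^ p + v ^ p) := by linarith
      rw [this, dvd_neg]
      exact hdiv.trans h1
    exact hw (hprime.dvd_of_dvd_pow h2)
  -- p-th powers
  have hpow : ∀ u v w : ℤ, u ^ p + v ^ p + w ^ p = 0 → IsCoprime u v → ¬ (p : ℤ) ∣ w →
      (∃ a : ℤ, u + v = a ^ p) ∧ ∃ α : ℤ, sgCofactor p u v = α ^ p := by
    intro u v w huvw huv hw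
    have hcop := sgCofactor_isCoprime hpp huv (hsum u v w huvw hw)
    have hmul : (u + v) * sgCofactor p u v = (-w) ^ p := by
      rw [mul_comm, sgCofactor_mul hodd, hodd.neg_pow]; linarith
    refine ⟨Int.eq_pow_of_mul_eq_pow_odd_left hcop hodd hmul, ?_⟩
    exact Int.eq_pow_of_mul_eq_pow_odd_right hcop hodd hmul
  obtain ⟨⟨a, ha⟩, ⟨α, hα⟩⟩ := hpow y z x (by linarith) hyz hpx
  obtain ⟨⟨b, hb⟩, -⟩ := hpow z x y (by linarith) hzx hpy
  obtain ⟨⟨c, hc⟩, ⟨γ, hγ⟩⟩ := hpow x y z H hxy hpz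
  -- reduce mod q
  have hx0 : ((x : ℤ) : ZMod q) = 0 := (ZMod.intCast_zmod_eq_zero_iff_dvd x q).2 hqx
  have hy0 : ((y : ℤ) : ZMod q) ≠ 0 := by
    intro h
    have hqy : (q : ℤ) ∣ y := (ZMod.intCast_zmod_eq_zero_iff_dvd y q).1 h
    exact hqprime.not_isUnit (hxy.isUnit_of_dvd' hqx hqy)
  have hz0 : ((z : ℤ) : ZMod q) ≠ 0 := by
    intro h
    have hqz : (q : ℤ) ∣ z := (ZMod.intCast_zmod_eq_zero_iff_dvd z q).1 h
    exact hqprime.not_isUnit (hzx.isUnit_of_dvd' hqz hqx)
  have hb' : ((b : ℤ) : ZMod q) ^ p = (z : ZMod q) := by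
    have := congrArg (Int.cast : ℤ → ZMod q) hb
    push_cast at this
    rw [hx0, add_zero] at this
    exact this.symm
  have hc' : ((c : ℤ) : ZMod q) ^ p = (y : ZMod q) := by
    have := congrArg (Int.cast : ℤ → ZMod q) hc
    push_cast at this
    rw [hx0, zero_add] at this
    exact this.symm
  have ha' : ((a : ℤ) : ZMod q) ^ p = (y : ZMod q) + (z : ZMod q) := by
    have := congrArg (Int.cast : ℤ → ZMod q) ha
    push_cast at this
    exact this.symm
  have hsum0 : ((c : ℤ) : ZMod q) ^ p + ((b : ℤ) : ZMod q) ^ p + (-((a : ℤ) : ZMod q)) ^ p = 0 := by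
    rw [hodd.neg_pow, ha', hb', hc']; ring
  have hyz0 : (y : ZMod q) + (z : ZMod q) = 0 := by
    rcases h1 _ _ _ hsum0 with h | h | h
    · rw [h, zero_pow hpp.ne_zero] at hc'
      exact absurd hc'.symm hy0
    · rw [h, zero_pow hpp.ne_zero] at hb'
      exact absurd hb'.symm hz0
    · rw [neg_eq_zero] at h
      rw [h, zero_pow hpp.ne_zero] at ha'
      exact ha'.symm
  have hzy : (z : ZMod q) = -(y : ZMod q) := by
    rw [eq_neg_iff_add_eq_zero, add_comm]; exact hyz0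
  -- the two cofactors mod q
  have hα' : ((α : ℤ) : ZMod q) ^ p = (p : ZMod q) * (y : ZMod q) ^ (p - 1) := by
    have := congrArg (Int.castRingHom (ZMod q)) hα
    rw [sgCofactor_map, map_pow] at this
    simp only [eq_intCast] at this
    rw [← this, hzy, sgCofactor_neg_self]
  have hγ' : ((γ : ℤ) : ZMod q) ^ p = (y : ZMod q) ^ (p - 1) := by
    have := congrArg (Int.castRingHom (ZMod q)) hγ
    rw [sgCofactor_map, map_pow] at this
    simp only [eq_intCast] at this
    rw [← this, hx0, sgCofactor_zero_left hodd]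
  have hγ0 : ((γ : ℤ) : ZMod q) ≠ 0 := by
    intro h
    rw [h, zero_pow hpp.ne_zero] at hγ'
    exact pow_ne_zero _ hy0 hγ'.symm
  apply h2 (((α : ℤ) : ZMod q) / ((γ : ℤ) : ZMod q))
  rw [div_pow, hα', hγ', mul_div_assoc, div_self (pow_ne_zero _ hy0), mul_one]

/-- **Sophie Germain's theorem** (Legendre's form): if `q` is an auxiliary prime such that
`x ^ p + y ^ p + z ^ p ≡ 0 (mod q)` forces `q ∣ x y z` and `p` is not a `p`-th power mod `q`,
then case I of Fermat's Last Theorem holds for the exponent `p`. -/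
theorem sophieGermain (p q : ℕ) [hp : Fact p.Prime] [hq : Fact q.Prime] (hp2 : p ≠ 2)
    (h1 : ∀ x y z : ZMod q, x ^ p + y ^ p + z ^ p = 0 → x = 0 ∨ y = 0 ∨ z = 0)
    (h2 : ∀ x : ZMod q, x ^ p ≠ (p : ZMod q))
    (a b c : ℤ) (hab : IsCoprime a b) (H : a ^ p + b ^ p = c ^ p) : (p : ℤ) ∣ a * b * c := by
  have hpp : p.Prime := hp.out
  have hodd : Odd p := hpp.odd_of_ne_two hp2
  have hprime : Prime (p : ℤ) := Nat.prime_iff_prime_int.1 hpp
  by_contra hdiv
  have hpa : ¬ (p : ℤ) ∣ a := fun h => hdiv ((h.mul_right b).mul_right c)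
  have hpb : ¬ (p : ℤ) ∣ b := fun h => hdiv ((h.mul_left a).mul_right c)
  have hpc : ¬ (p : ℤ) ∣ c := fun h => hdiv (h.mul_left (a * b))
  have hpc' : ¬ (p : ℤ) ∣ -c := fun h => hpc ((dvd_neg).1 h)
  have hp0 : 0 < p := hpp.pos
  -- pairwise coprimality
  have hac : IsCoprime a c := by
    have h1 : IsCoprime a (b ^ p) := hab.pow_right
    have h2 : IsCoprime a (c ^ p) := by
      rw [← H]
      have : IsCoprime a (b ^ p + a ^ (p - 1) * a) := h1.add_mul_right_right _
      have e : b ^ p + a ^ (p - 1) * a = a ^ p + b ^ p := by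
        rw [← pow_succ, Nat.sub_add_cancel hp0]; ring
      rwa [e] at this
    exact (IsCoprime.pow_right_iff hp0).1 h2
  have hbc : IsCoprime b c := by
    have h1 : IsCoprime b (a ^ p) := hab.symm.pow_right
    have h2 : IsCoprime b (c ^ p) := by
      rw [← H]
      have : IsCoprime b (a ^ p + b ^ (p - 1) * b) := h1.add_mul_right_right _
      have e : a ^ p + b ^ (p - 1) * b = a ^ p + b ^ p := by
        rw [← pow_succ, Nat.sub_add_cancel hp0]
      rwa [e] at this
    exact (IsCoprime.pow_right_iff hp0).1 h2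
  have H0 : a ^ p + b ^ p + (-c) ^ p = 0 := by
    rw [hodd.neg_pow, H]; ring
  -- reduce mod q
  have Hq : ((a : ℤ) : ZMod q) ^ p + ((b : ℤ) : ZMod q) ^ p + ((-c : ℤ) : ZMod q) ^ p = 0 := by
    have := congrArg (Int.cast : ℤ → ZMod q) H0
    push_cast at this
    push_cast
    exact this
  rcases h1 _ _ _ Hq with h | h | h
  · exact sophieGermain_core p q hp2 h1 h2 a b (-c) H0 hab hbc.neg_right hac.symm.neg_left
      hpa hpb hpc' ((ZMod.intCast_zmod_eq_zero_iff_dvd a q).1 h)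
  · exact sophieGermain_core p q hp2 h1 h2 b (-c) a (by linarith) hbc.neg_right
      hac.symm.neg_left hab hpb hpc' hpa ((ZMod.intCast_zmod_eq_zero_iff_dvd b q).1 h)
  · exact sophieGermain_core p q hp2 h1 h2 (-c) a b (by linarith) hac.symm.neg_left hab
      hbc.neg_right hpc' hpa hpb ((ZMod.intCast_zmod_eq_zero_iff_dvd (-c) q).1 h)

/-- Reduction of hypothesis (1) of `sophieGermain` to a finite check on the set `R` of nonzero
`p`-th power residues. -/
theorem sophieGermain_h1_of_residues (p q : ℕ) (R : Finset (ZMod q))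
    (hR : ∀ x : ZMod q, x = 0 ∨ x ^ p ∈ R)
    (hsum : ∀ a ∈ R, ∀ b ∈ R, ∀ c ∈ R, a + b + c ≠ 0) :
    ∀ x y z : ZMod q, x ^ p + y ^ p + z ^ p = 0 → x = 0 ∨ y = 0 ∨ z = 0 := by
  intro x y z h
  rcases hR x with hx | hx
  · exact Or.inl hx
  rcases hR y with hy | hy
  · exact Or.inr (Or.inl hy)
  rcases hR z with hz | hz
  · exact Or.inr (Or.inr hz)
  exact absurd h (hsum _ hx _ hy _ hz)


theorem caseI_five_residues : ∀ x : ZMod 11, x = 0 ∨ x ^ 5 ∈ ({1, -1} : Finset (ZMod 11)) := by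
  decide

theorem caseI_five_sums : ∀ a ∈ ({1, -1} : Finset (ZMod 11)), ∀ b ∈ ({1, -1} : Finset (ZMod 11)),
    ∀ c ∈ ({1, -1} : Finset (ZMod 11)), a + b + c ≠ 0 := by
  decide

theorem caseI_five_not_pow : ∀ x : ZMod 11, x ^ 5 ≠ ((5 : ℕ) : ZMod 11) := by
  decide

/-- Case I of Fermat's Last Theorem for exponent `5` (auxiliary prime `11`). -/
theorem caseI_five {a b c : ℤ} (hab : IsCoprime a b) (H : a ^ 5 + b ^ 5 = c ^ 5) :
    (5 : ℤ) ∣ a * b * c := by
  have h := @sophieGermain 5 11 ⟨by norm_num⟩ ⟨by norm_num⟩ (by norm_num)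
    (sophieGermain_h1_of_residues 5 11 _ caseI_five_residues caseI_five_sums)
    caseI_five_not_pow a b c hab H
  exact_mod_cast h

theorem caseI_seven_residues : ∀ x : ZMod 29, x = 0 ∨ x ^ 7 ∈ ({1, -1, 12, -12} : Finset (ZMod 29)) := by
  decide

theorem caseI_seven_sums : ∀ a ∈ ({1, -1, 12, -12} : Finset (ZMod 29)), ∀ b ∈ ({1, -1, 12, -12} : Finset (ZMod 29)),
    ∀ c ∈ ({1, -1, 12, -12} : Finset (ZMod 29)), a + b + c ≠ 0 := by
  decide

theorem caseI_seven_not_pow : ∀ x : ZMod 29, x ^ 7 ≠ ((7 : ℕ) : ZMod 29) := by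
  decide

/-- Case I of Fermat's Last Theorem for exponent `7` (auxiliary prime `29`). -/
theorem caseI_seven {a b c : ℤ} (hab : IsCoprime a b) (H : a ^ 7 + b ^ 7 = c ^ 7) :
    (7 : ℤ) ∣ a * b * c := by
  have h := @sophieGermain 7 29 ⟨by norm_num⟩ ⟨by norm_num⟩ (by norm_num)
    (sophieGermain_h1_of_residues 7 29 _ caseI_seven_residues caseI_seven_sums)
    caseI_seven_not_pow a b c hab H
  exact_mod_cast h

theorem caseI_eleven_residues : ∀ x : ZMod 23, x = 0 ∨ x ^ 11 ∈ ({1, -1} : Finset (ZMod 23)) := by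
  decide

theorem caseI_eleven_sums : ∀ a ∈ ({1, -1} : Finset (ZMod 23)), ∀ b ∈ ({1, -1} : Finset (ZMod 23)),
    ∀ c ∈ ({1, -1} : Finset (ZMod 23)), a + b + c ≠ 0 := by
  decide

theorem caseI_eleven_not_pow : ∀ x : ZMod 23, x ^ 11 ≠ ((11 : ℕ) : ZMod 23) := by
  decide

/-- Case I of Fermat's Last Theorem for exponent `11` (auxiliary prime `23`). -/
theorem caseI_eleven {a b c : ℤ} (hab : IsCoprime a b) (H : a ^ 11 + b ^ 11 = c ^ 11) :
    (11 : ℤ) ∣ a * b * c := by
  have h := @sophieGermain 11 23 ⟨by norm_num⟩ ⟨by norm_num⟩ (by norm_num)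
    (sophieGermain_h1_of_residues 11 23 _ caseI_eleven_residues caseI_eleven_sums)
    caseI_eleven_not_pow a b c hab H
  exact_mod_cast h

theorem caseI_thirteen_residues : ∀ x : ZMod 53, x = 0 ∨ x ^ 13 ∈ ({1, -1, 23, -23} : Finset (ZMod 53)) := by
  decide +kernel

theorem caseI_thirteen_sums : ∀ a ∈ ({1, -1, 23, -23} : Finset (ZMod 53)), ∀ b ∈ ({1, -1, 23, -23} : Finset (ZMod 53)),
    ∀ c ∈ ({1, -1, 23, -23} : Finset (ZMod 53)), a + b + c ≠ 0 := by
  decide +kernel

theorem caseI_thirteen_not_pow : ∀ x : ZMod 53, x ^ 13 ≠ ((13 : ℕ) : ZMod 53) := by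
  decide +kernel

/-- Case I of Fermat's Last Theorem for exponent `13` (auxiliary prime `53`). -/
theorem caseI_thirteen {a b c : ℤ} (hab : IsCoprime a b) (H : a ^ 13 + b ^ 13 = c ^ 13) :
    (13 : ℤ) ∣ a * b * c := by
  have h := @sophieGermain 13 53 ⟨by norm_num⟩ ⟨by norm_num⟩ (by norm_num)
    (sophieGermain_h1_of_residues 13 53 _ caseI_thirteen_residues caseI_thirteen_sums)
    caseI_thirteen_not_pow a b c hab H
  exact_mod_cast h

end Fermat.Agent.Kummer
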