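import Fermat.Agent.Kummer.Basic

/-!
# Kummer's descent (second case of FLT) in `ℤ[ζ_p]`, assuming `𝓞 K` is a PID and Kummer's lemma.
-/

set_option linter.unusedSectionVars false

namespace Fermat.Agent.Kummer

open NumberField Polynomial Finset

variable {p : ℕ} [hp : Fact p.Prime] {K : Type*} [Field K] [NumberField K]
  [hK : IsCyclotomicExtension {p} ℚ K] {ζ : K} (hζ : IsPrimitiveRoot ζ p)

local notation3 "z" => hζ.toInteger
local notation3 "l" => hζ.toInteger - 1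

omit [NumberField K] hK in
/-- `a ^ p + b ^ p = ∏_{k < p} (a + ζ ^ k b)` for odd `p`. -/
lemma pow_add_pow_eq_prod_range (hodd : p ≠ 2) (a b : 𝓞 K) :
    a ^ p + b ^ p = ∏ k ∈ range p, (a + z ^ k * b) := by
  classical
  have hz := hζ.toInteger_isPrimitiveRoot
  have hpodd : Odd p := hp.out.odd_of_ne_two hodd
  rw [hz.pow_add_pow_eq_prod_add_mul a b hpodd]
  have himg : nthRootsFinset p (1 : 𝓞 K) = (range p).image (fun k => z ^ k) := by
    symm
    apply Finset.eq_of_subset_of_card_le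
    · intro x hx
      obtain ⟨k, -, rfl⟩ := Finset.mem_image.1 hx
      rw [mem_nthRootsFinset hp.out.pos]
      rw [← pow_mul, mul_comm, pow_mul, hz.pow_eq_one, one_pow]
    · rw [hz.card_nthRootsFinset, Finset.card_image_of_injOn, card_range]
      intro i hi j hj hij
      exact hz.pow_inj (by simpa using hi) (by simpa using hj) hij
  rw [himg, Finset.prod_image]
  intro i hi j hj hij
  exact hz.pow_inj (by simpa using hi) (by simpa using hj) hij

omit [NumberField K] hK in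
lemma lam_dvd_zeta_pow_sub_one (k : ℕ) : l ∣ z ^ k - 1 := by
  simpa using sub_dvd_pow_sub_pow z 1 k

omit [NumberField K] hK in
lemma lam_dvd_zeta_pow_sub_zeta_pow (j k : ℕ) : l ∣ z ^ j - z ^ k := by
  have h1 := lam_dvd_zeta_pow_sub_one hζ j
  have h2 := lam_dvd_zeta_pow_sub_one hζ k
  have : z ^ j - z ^ k = (z ^ j - 1) - (z ^ k - 1) := by ring
  rw [this]
  exact dvd_sub h1 h2

omit [NumberField K] hK in
/-- `ζ^k - 1 = (ζ - 1) * g` with `g ≡ k mod (ζ - 1)`. -/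
lemma exists_geom (k : ℕ) : ∃ g : 𝓞 K, z ^ k - 1 = l * g ∧ l ∣ g - k := by
  refine ⟨∑ i ∈ range k, z ^ i, (mul_geom_sum z k).symm, ?_⟩
  have : ∑ i ∈ range k, z ^ i - (k : 𝓞 K) = ∑ i ∈ range k, (z ^ i - 1) := by
    rw [Finset.sum_sub_distrib]
    simp
  rw [this]
  exact Finset.dvd_sum fun i _ => lam_dvd_zeta_pow_sub_one hζ i

/-- `ζ - 1` divides an integer iff `p` does. -/
lemma lam_dvd_intCast_iff {n : ℤ} : l ∣ (n : 𝓞 K) ↔ (p : ℤ) ∣ n :=
  IsCyclotomicExtension.Rat.zeta_sub_one_dvd_intCast_iff' p hζ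

lemma lam_prime : Prime (l) := hζ.zeta_sub_one_prime'

lemma lam_dvd_p : l ∣ (p : 𝓞 K) := hζ.toInteger_sub_one_dvd_prime'

/-- `p ∣ (ζ-1)^(p-1)`. -/
lemma p_dvd_lam_pow : (p : 𝓞 K) ∣ (l) ^ (p - 1) :=
  (IsCyclotomicExtension.Rat.associated_zeta_sub_one_pow_prime p hζ).symm.dvd


/-- All the factors `a + ζ^k b` are divisible by `ζ - 1`. -/
lemma lam_dvd_factor (hodd : p ≠ 2) {a b c : 𝓞 K} {u : (𝓞 K)ˣ} {m : ℕ} (hm : 1 ≤ m)
    (H : a ^ p + b ^ p = u * (l ^ m * c) ^ p) (k : ℕ) : l ∣ a + z ^ k * b := by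
  have h1 : l ∣ ∏ k ∈ range p, (a + z ^ k * b) := by
    rw [← pow_add_pow_eq_prod_range hζ hodd, H]
    refine Dvd.dvd.mul_left ?_ _
    refine dvd_pow ?_ hp.out.ne_zero
    exact Dvd.dvd.mul_right (dvd_pow_self _ (by omega)) _
  obtain ⟨k1, -, hk1⟩ := (Prime.dvd_finsetProd_iff (lam_prime hζ) _).1 h1
  have : a + z ^ k * b = (a + z ^ k1 * b) + (z ^ k - z ^ k1) * b := by ring
  rw [this]
  exact dvd_add hk1 (Dvd.dvd.mul_right (lam_dvd_zeta_pow_sub_zeta_pow hζ k k1) _)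

/-- Some factor `a + ζ^k b` is divisible by `(ζ - 1)^2`. -/
lemma exists_lam_sq_dvd_factor {a b : 𝓞 K} (hb : ¬ l ∣ b) (h0 : l ∣ a + b) :
    ∃ k < p, l ^ 2 ∣ a + z ^ k * b := by
  obtain ⟨t, ht⟩ := h0
  obtain ⟨nt, hnt⟩ := exists_int_sub_dvd hζ t
  obtain ⟨nb, hnb⟩ := exists_int_sub_dvd hζ b
  have hpnb : ¬ (p : ℤ) ∣ nb := by
    intro h
    apply hb
    have h1 : l ∣ (nb : 𝓞 K) := (lam_dvd_intCast_iff hζ).2 h
    have : b = (b - nb) + nb := by ring
    rw [this]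
    exact dvd_add hnb h1
  have hnb0 : (nb : ZMod p) ≠ 0 := by
    rwa [Ne, ZMod.intCast_zmod_eq_zero_iff_dvd]
  let κ : ZMod p := -(nt : ZMod p) * (nb : ZMod p)⁻¹
  refine ⟨κ.val, ZMod.val_lt κ, ?_⟩
  obtain ⟨g, hg, hgk⟩ := exists_geom hζ κ.val
  have hdvd : (p : ℤ) ∣ nt + κ.val * nb := by
    rw [← ZMod.intCast_zmod_eq_zero_iff_dvd]
    push_cast
    rw [ZMod.natCast_zmod_val]
    simp only [κ]
    field_simp
    ring
  have h2 : l ∣ t + g * b := by
    have e : t + g * b = (t - nt) + (g - κ.val) * b + κ.val * (b - nb) +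
        ((nt + κ.val * nb : ℤ) : 𝓞 K) := by
      push_cast; ring
    rw [e]
    refine dvd_add (dvd_add (dvd_add hnt (Dvd.dvd.mul_right hgk _)) (Dvd.dvd.mul_left hnb _)) ?_
    exact (lam_dvd_intCast_iff hζ).2 hdvd
  obtain ⟨s, hs⟩ := h2
  refine ⟨s, ?_⟩
  have : a + z ^ κ.val * b = (a + b) + (z ^ κ.val - 1) * b := by ring
  rw [this, ht, hg]
  have : l * t + l * g * b = l * (t + g * b) := by ring
  rw [this, hs]
  ring


omit [NumberField K] hK in
/-- For `j ≠ k` both `< p`, `ζ^j - ζ^k` is associated to `ζ - 1`. -/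
lemma associated_lam_zeta_pow_sub {j k : ℕ} (hj : j < p) (hk : k < p) (hjk : j ≠ k) :
    Associated (l) (z ^ j - z ^ k) := by
  have hz := hζ.toInteger_isPrimitiveRoot
  refine hz.nthRootsFinset_pairwise_associated_sub_one_sub_of_prime hp.out ?_ ?_ ?_
  · rw [Finset.mem_coe, mem_nthRootsFinset hp.out.pos, ← pow_mul, mul_comm, pow_mul,
      hz.pow_eq_one, one_pow]
  · rw [Finset.mem_coe, mem_nthRootsFinset hp.out.pos, ← pow_mul, mul_comm, pow_mul,
      hz.pow_eq_one, one_pow]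
  · intro h
    exact hjk (hz.pow_inj hj hk h)

/-- A common prime divisor of two distinct factors divides `ζ - 1`. -/
lemma prime_dvd_lam_of_dvd_factors [IsPrincipalIdealRing (𝓞 K)] {a b : 𝓞 K}
    (hab : IsCoprime a b) {j k : ℕ} (hj : j < p) (hk : k < p)
    (hjk : j ≠ k) {π : 𝓞 K} (hπ : Prime π) (h1 : π ∣ a + z ^ j * b) (h2 : π ∣ a + z ^ k * b) :
    π ∣ l := by
  by_contra hπl
  obtain ⟨v, hv⟩ := associated_lam_zeta_pow_sub hζ hj hk hjk
  have hb : π ∣ b := by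
    have h3 : π ∣ (z ^ j - z ^ k) * b := by
      have : (z ^ j - z ^ k) * b = (a + z ^ j * b) - (a + z ^ k * b) := by ring
      rw [this]
      exact dvd_sub h1 h2
    rw [← hv] at h3
    rcases hπ.dvd_or_dvd h3 with h4 | h4
    · rcases hπ.dvd_or_dvd h4 with h5 | h5
      · exact absurd h5 hπl
      · exact absurd (isUnit_of_dvd_unit h5 v.isUnit) hπ.not_isUnit
    · exact h4
  have ha : π ∣ a := by
    have h3 : π ∣ (z ^ j - z ^ k) * a := by
      have : (z ^ j - z ^ k) * a = z ^ j * (a + z ^ k * b) - z ^ k * (a + z ^ j * b) := by ring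
      rw [this]
      exact dvd_sub (Dvd.dvd.mul_left h2 _) (Dvd.dvd.mul_left h1 _)
    rw [← hv] at h3
    rcases hπ.dvd_or_dvd h3 with h4 | h4
    · rcases hπ.dvd_or_dvd h4 with h5 | h5
      · exact absurd h5 hπl
      · exact absurd (isUnit_of_dvd_unit h5 v.isUnit) hπ.not_isUnit
    · exact h4
  exact hπ.not_isUnit (hab.isUnit_of_dvd' ha hb)


/-- The descent step. -/
theorem descent (hodd : p ≠ 2) [IsPrincipalIdealRing (𝓞 K)]
    (kummer : ∀ (u : (𝓞 K)ˣ) (n : ℤ), (p : 𝓞 K) ∣ (u : 𝓞 K) - n → ∃ v : (𝓞 K)ˣ, u = v ^ p)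
    {a b c : 𝓞 K} {u : (𝓞 K)ˣ} {m : ℕ} (hm : 1 ≤ m) (hb : ¬ l ∣ b) (hc : ¬ l ∣ c)
    (hab : IsCoprime a b) (H : a ^ p + b ^ p = u * (l ^ m * c) ^ p) (h2 : l ^ 2 ∣ a + b) :
    2 ≤ m ∧ ∃ (a' b' c' : 𝓞 K) (u' : (𝓞 K)ˣ), ¬ l ∣ a' ∧ ¬ l ∣ b' ∧ ¬ l ∣ c' ∧
      IsCoprime a' b' ∧ a' ^ p + b' ^ p = u' * (l ^ (m - 1) * c') ^ p := by
  have hl := lam_prime hζ
  have hl0 : (l : 𝓞 K) ≠ 0 := hl.ne_zero
  have hp3 : 3 ≤ p := by have := hp.out.two_le; omega
  have hppos : 0 < p := hp.out.pos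
  -- the factors
  choose G hG using fun k => lam_dvd_factor hζ hodd hm H k
  -- G 0 divisible by l
  have hG0 : l ∣ G 0 := by
    have := hG 0
    rw [pow_zero, one_mul] at this
    rw [this, pow_two] at h2
    exact (mul_dvd_mul_iff_left hl0).1 h2
  -- G k not divisible by l for 0 < k < p
  have hGk : ∀ k, 0 < k → k < p → ¬ l ∣ G k := by
    intro k hk0 hkp hdvd
    obtain ⟨g, hg, hgk⟩ := exists_geom hζ k
    obtain ⟨s, hs⟩ := h2
    have e1 : l * G k = l * (l * s + g * b) := by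
      rw [← hG k]
      have : a + z ^ k * b = (a + b) + (z ^ k - 1) * b := by ring
      rw [this, hs, hg]; ring
    have e2 : G k = l * s + g * b := mul_left_cancel₀ hl0 e1
    rw [e2] at hdvd
    have h3 : l ∣ g * b := (dvd_add_right (dvd_mul_right _ _)).1 hdvd
    rcases hl.dvd_or_dvd h3 with h4 | h4
    · have h5 : l ∣ ((k : ℤ) : 𝓞 K) := by
        have : ((k : ℤ) : 𝓞 K) = g - (g - k) := by push_cast; ring
        rw [this]
        exact dvd_sub h4 hgk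
      rw [lam_dvd_intCast_iff hζ] at h5
      have := Int.le_of_dvd (by exact_mod_cast hk0) h5
      omega
    · exact hb h4
  have hprod : ∏ k ∈ range p, G k = u * l ^ (p * (m - 1)) * c ^ p := by
    have h1 : ∏ k ∈ range p, (l * G k) = u * (l ^ m * c) ^ p := by
      rw [← H, pow_add_pow_eq_prod_range hζ hodd]
      exact Finset.prod_congr rfl fun k _ => (hG k).symm
    rw [Finset.prod_mul_distrib, Finset.prod_const, card_range] at h1
    have h2 : l ^ p * ∏ k ∈ range p, G k = l ^ p * (u * l ^ (p * (m - 1)) * c ^ p) := by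
      rw [h1, mul_pow, ← pow_mul]
      have : m * p = p + p * (m - 1) := by
        obtain ⟨m', rfl⟩ : ∃ m', m = m' + 1 := ⟨m - 1, by omega⟩
        simp only [Nat.add_sub_cancel]; ring
      rw [this, pow_add]; ring
    exact mul_left_cancel₀ (pow_ne_zero _ hl0) h2
  set P' := ∏ k ∈ (range p).erase 0, G k with hP'
  have hsplit : G 0 * P' = u * l ^ (p * (m - 1)) * c ^ p := by
    rw [← hprod]; exact Finset.mul_prod_erase _ _ (by simp [hppos])
  have hP'l : ¬ l ∣ P' := by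
    intro h
    obtain ⟨k, hk, hdk⟩ := (Prime.dvd_finsetProd_iff hl _).1 h
    rw [Finset.mem_erase, Finset.mem_range] at hk
    exact hGk k (Nat.pos_of_ne_zero hk.1) hk.2 hdk
  have hpow : l ^ (p * (m - 1)) ∣ G 0 := by
    apply hl.pow_dvd_of_dvd_mul_right _ hP'l
    rw [hsplit]; exact ⟨u * c ^ p, by ring⟩
  obtain ⟨x, hx⟩ := hpow
  have hxP : x * P' = u * c ^ p := by
    have : l ^ (p * (m - 1)) * (x * P') = l ^ (p * (m - 1)) * (u * c ^ p) := by
      rw [← mul_assoc, ← hx, hsplit]; ring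
    exact mul_left_cancel₀ (pow_ne_zero _ hl0) this
  have hxl : ¬ l ∣ x := by
    intro h
    have : l ∣ (u : 𝓞 K) * c ^ p := by rw [← hxP]; exact Dvd.dvd.mul_right h _
    rcases hl.dvd_or_dvd this with h1 | h1
    · exact hl.not_isUnit (isUnit_of_dvd_unit h1 u.isUnit)
    · exact hc (hl.dvd_of_dvd_pow h1)
  have hm2 : 2 ≤ m := by
    by_contra hlt
    have hm1 : m = 1 := by omega
    subst hm1
    simp only [le_refl, tsub_eq_zero_of_le, mul_zero, pow_zero, one_mul] at hx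
    exact hxl (hx ▸ hG0)
  have hcop : ∀ j k, j < p → k < p → j ≠ k → IsCoprime (G j) (G k) := by
    intro j k hj hk hjk
    apply isCoprime_of_prime_dvd
    · rintro ⟨h1, h2⟩
      rcases Nat.eq_zero_or_pos k with hk0 | hk0
      · subst hk0
        exact hGk j (Nat.pos_of_ne_zero hjk) hj (h1 ▸ dvd_zero _)
      · exact hGk k hk0 hk (h2 ▸ dvd_zero _)
    · intro π hπ h1 h2
      have h3 : π ∣ l := prime_dvd_lam_of_dvd_factors hζ hab hj hk hjk hπ
        (by rw [hG j]; exact Dvd.dvd.mul_left h1 _) (by rw [hG k]; exact Dvd.dvd.mul_left h2 _)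
      have h4 : Associated π (l) := hπ.associated_of_dvd hl h3
      rcases Nat.eq_zero_or_pos k with hk0 | hk0
      · subst hk0
        exact hGk j (Nat.pos_of_ne_zero hjk) hj (h4.dvd_iff_dvd_left.1 h1)
      · exact hGk k hk0 hk (h4.dvd_iff_dvd_left.1 h2)
  have hxcop : ∀ k, 0 < k → k < p → IsCoprime x (G k) := by
    intro k hk0 hkp
    have := hcop 0 k hppos hkp (by omega)
    rw [hx] at this
    exact this.of_mul_left_right
  have hXpow : ∃ X, Associated (X ^ p) x := by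
    have hc1 : IsCoprime x P' := by
      apply IsCoprime.prod_right
      intro k hk
      rw [Finset.mem_erase, Finset.mem_range] at hk
      exact hxcop k (Nat.pos_of_ne_zero hk.1) hk.2
    refine exists_associated_pow_of_associated_pow_mul hc1 (c := c) ?_
    exact ⟨u, by rw [hxP]; ring⟩
  have hYpow : ∀ k0, 0 < k0 → k0 < p → ∃ Y, Associated (Y ^ p) (G k0) := by
    intro k0 hk0 hk0p
    set Q := ∏ k ∈ ((range p).erase 0).erase k0, G k with hQ
    have hP'Q : G k0 * Q = P' := Finset.mul_prod_erase _ _ (by simp [hk0.ne', hk0p])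
    have hc1 : IsCoprime (G k0) (x * Q) := by
      apply IsCoprime.mul_right
      · exact (hxcop k0 hk0 hk0p).symm
      · apply IsCoprime.prod_right
        intro k hk
        simp only [Finset.mem_erase, Finset.mem_range] at hk
        exact hcop k0 k hk0p hk.2.2 (Ne.symm hk.1)
    refine exists_associated_pow_of_associated_pow_mul hc1 (c := c) ?_
    refine ⟨u, ?_⟩
    rw [← hP'Q] at hxP
    rw [mul_comm, ← hxP]; ring
  have hrel : G 1 + z * G (p - 1) = (1 + z) * (l ^ (p * (m - 1)) * x) := by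
    rw [← hx]
    apply mul_left_cancel₀ hl0
    have e1 := hG 1
    have e2 := hG (p - 1)
    have e0 := hG 0
    have hzp : z ^ (p - 1) * z = 1 := by
      rw [← pow_succ, Nat.sub_add_cancel hp.out.one_le, zeta_pow_p hζ]
    calc l * (G 1 + z * G (p - 1)) = (l * G 1) + z * (l * G (p - 1)) := by ring
      _ = (a + z ^ 1 * b) + z * (a + z ^ (p - 1) * b) := by rw [← e1, ← e2]
      _ = (1 + z) * a + z * b + (z ^ (p - 1) * z) * b := by ring
      _ = (1 + z) * (a + z ^ 0 * b) := by rw [hzp]; ring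
      _ = l * ((1 + z) * G 0) := by rw [e0]; ring
  have hz1 : IsUnit (1 + z) := by
    have := hζ.toInteger_isPrimitiveRoot.geom_sum_isUnit hp.out.two_le (j := 2) (by
      rw [Nat.coprime_primes Nat.prime_two hp.out]; exact fun h => hodd h.symm)
    simpa [Finset.sum_range_succ] using this
  have hzu : IsUnit z := hζ.toInteger_isPrimitiveRoot.isUnit hp.out.ne_zero
  obtain ⟨X, u₀, hX⟩ := hXpow
  obtain ⟨Y₁, u₁, hY₁⟩ := hYpow 1 (by omega) (by omega)
  obtain ⟨Y₂, u₂, hY₂⟩ := hYpow (p - 1) (by omega) (by omega)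
  let η : (𝓞 K)ˣ := hzu.unit * u₂ * u₁⁻¹
  let u' : (𝓞 K)ˣ := hz1.unit * u₀ * u₁⁻¹
  have hu : (u₁ : 𝓞 K) * ((u₁⁻¹ : (𝓞 K)ˣ) : 𝓞 K) = 1 := by simp
  have hηval : (η : 𝓞 K) = z * u₂ * ((u₁⁻¹ : (𝓞 K)ˣ) : 𝓞 K) := by
    simp [η]
  have hu'val : (u' : 𝓞 K) = (1 + z) * u₀ * ((u₁⁻¹ : (𝓞 K)ˣ) : 𝓞 K) := by
    simp [u']
  have hLp : l ^ (p * (m - 1)) = (l ^ (m - 1)) ^ p := by rw [← pow_mul, mul_comm]
  have hmain : Y₁ ^ p + η * Y₂ ^ p = u' * (l ^ (m - 1) * X) ^ p := by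
    have h1 : (u₁ : 𝓞 K) * (Y₁ ^ p + η * Y₂ ^ p) = u₁ * (u' * (l ^ (m - 1) * X) ^ p) := by
      rw [hηval, hu'val, mul_pow]
      rw [hLp] at hrel
      linear_combination hY₁ + z * hY₂ - (1 + z) * (l ^ (m - 1)) ^ p * hX + hrel +
        (z * Y₂ ^ p * u₂ - (1 + z) * (l ^ (m - 1)) ^ p * X ^ p * u₀) * hu
    exact mul_left_cancel₀ u₁.ne_zero h1
  have hpdvd : (p : 𝓞 K) ∣ Y₁ ^ p + η * Y₂ ^ p := by
    rw [hmain]
    refine Dvd.dvd.mul_left ?_ _
    rw [mul_pow]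
    refine Dvd.dvd.mul_right ?_ _
    refine (p_dvd_lam_pow hζ).trans ?_
    rw [← pow_mul]
    apply pow_dvd_pow
    have : 1 ≤ m - 1 := by omega
    calc p - 1 ≤ 1 * p := by omega
      _ ≤ (m - 1) * p := Nat.mul_le_mul_right _ this
  obtain ⟨n₁, hn₁⟩ := exists_int_pow_sub_dvd hζ Y₁
  obtain ⟨n₂, hn₂⟩ := exists_int_pow_sub_dvd hζ Y₂
  have hY₂l : ¬ l ∣ Y₂ := fun h => hGk (p - 1) (by omega) (by omega)
    (by rw [← hY₂]; exact Dvd.dvd.mul_right (dvd_pow h hp.out.ne_zero) _)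
  have hY₁l : ¬ l ∣ Y₁ := fun h => hGk 1 (by omega) (by omega)
    (by rw [← hY₁]; exact Dvd.dvd.mul_right (dvd_pow h hp.out.ne_zero) _)
  have hXl : ¬ l ∣ X := fun h => hxl
    (by rw [← hX]; exact Dvd.dvd.mul_right (dvd_pow h hp.out.ne_zero) _)
  have hn₂p : ¬ (p : ℤ) ∣ n₂ := by
    intro h
    apply hY₂l
    apply hl.dvd_of_dvd_pow (n := p)
    have h1 : l ∣ (n₂ : 𝓞 K) := (lam_dvd_intCast_iff hζ).2 h
    have h2 : l ∣ Y₂ ^ p - n₂ := (lam_dvd_p hζ).trans hn₂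
    have : Y₂ ^ p = (Y₂ ^ p - n₂) + n₂ := by ring
    rw [this]; exact dvd_add h2 h1
  obtain ⟨n₂', hn₂'⟩ : ∃ n₂' : ℤ, (p : ℤ) ∣ n₂ * n₂' - 1 := by
    have hcop' : IsCoprime (p : ℤ) n₂ :=
      (Nat.prime_iff_prime_int.1 hp.out).coprime_iff_not_dvd.2 hn₂p
    obtain ⟨s, t, hst⟩ := hcop'
    exact ⟨t, ⟨-s, by linear_combination hst⟩⟩
  obtain ⟨v, hv⟩ := kummer η (-n₁ * n₂') (by
    have h3 : (p : 𝓞 K) ∣ ((n₂ * n₂' - 1 : ℤ) : 𝓞 K) := by
      obtain ⟨q, hq⟩ := hn₂'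
      exact ⟨q, by rw [hq]; push_cast; ring⟩
    have h4 : (p : 𝓞 K) ∣ (n₁ : 𝓞 K) + η * n₂ := by
      have : (n₁ : 𝓞 K) + η * n₂ =
          (Y₁ ^ p + η * Y₂ ^ p) - (Y₁ ^ p - n₁) - η * (Y₂ ^ p - n₂) := by ring
      rw [this]
      exact dvd_sub (dvd_sub hpdvd hn₁) (Dvd.dvd.mul_left hn₂ _)
    have : (η : 𝓞 K) - ((-n₁ * n₂' : ℤ) : 𝓞 K) =
        n₂' * ((n₁ : 𝓞 K) + η * n₂) - η * ((n₂ * n₂' - 1 : ℤ) : 𝓞 K) := by
      push_cast; ring
    rw [this]
    exact dvd_sub (Dvd.dvd.mul_left h4 _) (Dvd.dvd.mul_left h3 _))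
  refine ⟨hm2, Y₁, v * Y₂, X, u', hY₁l, ?_, hXl, ?_, ?_⟩
  · intro h
    rcases hl.dvd_or_dvd h with h1 | h1
    · exact hl.not_isUnit (isUnit_of_dvd_unit h1 v.isUnit)
    · exact hY₂l h1
  · have h1 := hcop 1 (p - 1) (by omega) (by omega) (by omega)
    rw [← hY₁, ← hY₂] at h1
    have h2 : IsCoprime (Y₁ ^ p) (Y₂ ^ p) := h1.of_mul_left_left.of_mul_right_left
    have h3 : IsCoprime Y₁ Y₂ := (IsCoprime.pow_iff hppos hppos).1 h2
    exact (isCoprime_mul_unit_left_right v.isUnit _ _).2 h3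
  · rw [mul_pow, ← hmain, hv]; push_cast; ring


/-- No solutions of the generalised equation `a^p + b^p = u (λ^m c)^p` with `m ≥ 1`. -/
theorem no_solution (hodd : p ≠ 2) [IsPrincipalIdealRing (𝓞 K)]
    (kummer : ∀ (u : (𝓞 K)ˣ) (n : ℤ), (p : 𝓞 K) ∣ (u : 𝓞 K) - n → ∃ v : (𝓞 K)ˣ, u = v ^ p) :
    ∀ (m : ℕ) (a b c : 𝓞 K) (u : (𝓞 K)ˣ), 1 ≤ m → ¬ l ∣ b → ¬ l ∣ c → IsCoprime a b →
      a ^ p + b ^ p ≠ u * (l ^ m * c) ^ p := by
  intro m
  induction m with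
  | zero => intro a b c u hm; omega
  | succ m ih =>
    intro a b c u hm hb hc hab H
    have hzu : IsUnit z := hζ.toInteger_isPrimitiveRoot.isUnit hp.out.ne_zero
    have h0 : l ∣ a + b := by simpa using lam_dvd_factor hζ hodd hm H 0
    obtain ⟨k, hk, hk2⟩ := exists_lam_sq_dvd_factor hζ hb h0
    have hb₁ : ¬ l ∣ z ^ k * b := by
      intro h
      rcases (lam_prime hζ).dvd_or_dvd h with h1 | h1
      · exact (lam_prime hζ).not_isUnit (isUnit_of_dvd_unit h1 (hzu.pow k))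
      · exact hb h1
    have hab₁ : IsCoprime a (z ^ k * b) := (isCoprime_mul_unit_left_right (hzu.pow k) _ _).2 hab
    have H₁ : a ^ p + (z ^ k * b) ^ p = u * (l ^ (m + 1) * c) ^ p := by
      rw [← H, mul_pow, ← pow_mul, mul_comm k p, pow_mul, zeta_pow_p, one_pow, one_mul]
    obtain ⟨hm2, a', b', c', u', -, hb', hc', hab', H'⟩ :=
      descent hζ hodd kummer hm hb₁ hc hab₁ H₁ hk2
    exact ih a' b' c' u' (by omega) hb' hc' hab' (by simpa using H')

variable (K) in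
/-- **Second case of Fermat's Last Theorem** for an odd prime `p` such that `ℤ[ζ_p]` is a PID and
Kummer's lemma holds. -/
theorem caseII (hodd : p ≠ 2) [IsPrincipalIdealRing (𝓞 K)]
    (kummer : ∀ (u : (𝓞 K)ˣ) (n : ℤ), (p : 𝓞 K) ∣ (u : 𝓞 K) - n → ∃ v : (𝓞 K)ˣ, u = v ^ p)
    (a b c : ℤ) (hc : c ≠ 0) (hb : ¬ (p : ℤ) ∣ b) (hpc : (p : ℤ) ∣ c)
    (hab : IsCoprime a b) : a ^ p + b ^ p ≠ c ^ p := by
  intro H
  have hζ : IsPrimitiveRoot (IsCyclotomicExtension.zeta p ℚ K) p :=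
    IsCyclotomicExtension.zeta_spec p ℚ K
  have hl := lam_prime hζ
  have hcK : (c : 𝓞 K) ≠ 0 := by exact_mod_cast hc
  have hfin : FiniteMultiplicity (hζ.toInteger - 1) (c : 𝓞 K) :=
    .of_not_isUnit hl.not_isUnit hcK
  obtain ⟨c', hcm, hc'⟩ := hfin.exists_eq_pow_mul_and_not_dvd
  generalize multiplicity (hζ.toInteger - 1) (c : 𝓞 K) = m at hcm
  have hm : 1 ≤ m := by
    by_contra h
    have hm0 : m = 0 := by omega
    subst hm0
    rw [pow_zero, one_mul] at hcm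
    apply hc'
    rw [← hcm]
    exact (lam_dvd_intCast_iff hζ).2 hpc
  refine no_solution hζ hodd kummer m (a : 𝓞 K) b c' 1 hm ?_ hc' ?_ ?_
  · rwa [lam_dvd_intCast_iff hζ]
  · exact IsCoprime.intCast hab
  · rw [← hcm, Units.val_one, one_mul]
    exact_mod_cast H

end Fermat.Agent.Kummer
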