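import Mathlib

/-!
# Kummer's lemma, piece C (helper3): interface for the explicit computation

`KL_f R j` is the polynomial `X` (for `j = 0`) resp. `1 + X + ... + X^j` (for `j ≥ 1`); evaluated at a
primitive `p`-th root of unity `ζ` these are the units `ζ, 1 + ζ, 1 + ζ + ζ², ...`.

`KL_Data p` is the purely polynomial statement over `ZMod p` that has to be checked by explicit
computation for each prime `p`: there are "logarithmic derivatives" `L j` of the `KL_f j` modulo
`(X - 1)^(p-2)` which are linearly independent over `ZMod p` modulo `(X - 1)^(p-2)`.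
-/

set_option autoImplicit false

open Polynomial

namespace Fermat.Agent.Kummer

/-- `X` for `j = 0`, and `1 + X + ... + X^j` for `j ≥ 1`. -/
noncomputable def KL_f (R : Type*) [CommRing R] (j : ℕ) : R[X] :=
  if j = 0 then X else ∑ i ∈ Finset.range (j + 1), X ^ i

/-- The explicit computation needed for Kummer's lemma at the prime `p`. -/
def KL_Data (p : ℕ) : Prop :=
  ∃ L : Fin ((p - 1) / 2) → (ZMod p)[X],
    (∀ j : Fin ((p - 1) / 2), (X - 1 : (ZMod p)[X]) ^ (p - 2) ∣
      KL_f (ZMod p) (j : ℕ) * L j - derivative (KL_f (ZMod p) (j : ℕ))) ∧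
    (∀ c : Fin ((p - 1) / 2) → ZMod p,
      (X - 1 : (ZMod p)[X]) ^ (p - 2) ∣ ∑ j, C (c j) * L j → c = 0)

end Fermat.Agent.Kummer
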