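import Mathlib.NumberTheory.NumberField.Units.DirichletTheorem
import Mathlib.NumberTheory.NumberField.Cyclotomic.Embeddings
import Mathlib.GroupTheory.Index

/-!
# Index argument for Kummer's lemma (piece C1)

If a subgroup `H` of the units of `ℤ[ζ_p]` contains all `p`-th powers, and there are `(p-1)/2`
units that are independent modulo `H`, then `H` is exactly the group of `p`-th powers.
-/

set_option linter.unusedSectionVars false
set_option linter.style.haveILetI false

namespace Fermat.Agent.Kummer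

open NumberField NumberField.Units

variable {p : ℕ} [hp : Fact p.Prime] (K : Type*) [Field K] [NumberField K]
  [hK : IsCyclotomicExtension {p} ℚ K]

/-- The unit rank of `ℚ(ζ_p)` plus one is `(p - 1) / 2`. -/
lemma rank_add_one (hodd : p ≠ 2) : rank K + 1 = (p - 1) / 2 := by
  have h2 : 2 < p := lt_of_le_of_ne hp.out.two_le (Ne.symm hodd)
  have hcard : Fintype.card (InfinitePlace K) = (p - 1) / 2 := by
    rw [InfinitePlace.card_eq_nrRealPlaces_add_nrComplexPlaces,
      IsCyclotomicExtension.Rat.nrRealPlaces_eq_zero K h2,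
      IsCyclotomicExtension.Rat.nrComplexPlaces_eq_totient_div_two p K,
      Nat.totient_prime hp.out, zero_add]
  have hpos : 0 < (p - 1) / 2 := Nat.div_pos (by omega) (by norm_num)
  rw [rank, hcard]
  omega


/-- The subgroup of `p`-th powers of units. -/
def pthPowers (p : ℕ) : Subgroup (𝓞 K)ˣ := (powMonoidHom p : (𝓞 K)ˣ →* (𝓞 K)ˣ).range

lemma mem_pthPowers {p : ℕ} {u : (𝓞 K)ˣ} : u ∈ pthPowers K p ↔ ∃ v : (𝓞 K)ˣ, u = v ^ p := by
  simp only [pthPowers, MonoidHom.mem_range, powMonoidHom_apply]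
  exact ⟨fun ⟨v, hv⟩ => ⟨v, hv.symm⟩, fun ⟨v, hv⟩ => ⟨v, hv.symm⟩⟩

omit hK in
/-- In the quotient by `p`-th powers every element is killed by `p`. -/
lemma quot_pow_eq_one (q : (𝓞 K)ˣ ⧸ pthPowers K p) : q ^ p = 1 := by
  induction q using QuotientGroup.induction_on with
  | H u =>
    rw [← QuotientGroup.mk_pow, QuotientGroup.eq_one_iff]
    exact (mem_pthPowers K).2 ⟨u, rfl⟩

omit hK in
lemma quot_zpow_eq (q : (𝓞 K)ˣ ⧸ pthPowers K p) (k : ℤ) :
    q ^ k = q ^ ((k : ZMod p).val) := by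
  have h1 : q ^ (p : ℤ) = 1 := by rw [zpow_natCast]; exact quot_pow_eq_one K q
  rw [zpow_eq_zpow_emod k h1, ← zpow_natCast]
  congr 1
  rw [ZMod.val_intCast]

omit hK in
/-- The index of the `p`-th powers is at most `p ^ (rank + 1)`. -/
lemma card_quot_pthPowers_le :
    Finite ((𝓞 K)ˣ ⧸ pthPowers K p) ∧
      Nat.card ((𝓞 K)ˣ ⧸ pthPowers K p) ≤ p ^ (rank K + 1) := by
  obtain ⟨t₀, ht₀⟩ := IsCyclic.exists_generator (α := torsion K)
  let f : (ZMod p × (Fin (rank K) → ZMod p)) → (𝓞 K)ˣ ⧸ pthPowers K p := fun ke =>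
    (QuotientGroup.mk (t₀ : (𝓞 K)ˣ)) ^ ke.1.val *
      ∏ i, (QuotientGroup.mk (fundSystem K i)) ^ (ke.2 i).val
  have hf : Function.Surjective f := by
    intro q
    induction q using QuotientGroup.induction_on with
    | H u =>
      obtain ⟨⟨t, e⟩, hte, -⟩ := exist_unique_eq_mul_prod K u
      obtain ⟨k, hk⟩ := Subgroup.mem_zpowers_iff.1 (ht₀ t)
      refine ⟨((k : ZMod p), fun i => (e i : ZMod p)), ?_⟩
      simp only [f]
      have hu : (QuotientGroup.mk u : (𝓞 K)ˣ ⧸ pthPowers K p) =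
          (QuotientGroup.mk (t₀ : (𝓞 K)ˣ)) ^ k *
            ∏ i, (QuotientGroup.mk (fundSystem K i)) ^ (e i) := by
        rw [hte, ← hk]
        simp only [QuotientGroup.mk_mul, QuotientGroup.mk_prod, QuotientGroup.mk_zpow,
          Subgroup.coe_zpow]
      rw [hu, quot_zpow_eq K _ k]
      congr 1
      exact Finset.prod_congr rfl fun i _ => (quot_zpow_eq K _ (e i)).symm
  haveI : Finite ((𝓞 K)ˣ ⧸ pthPowers K p) := Finite.of_surjective f hf
  refine ⟨inferInstance, ?_⟩
  calc Nat.card ((𝓞 K)ˣ ⧸ pthPowers K p)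
      ≤ Nat.card (ZMod p × (Fin (rank K) → ZMod p)) := Nat.card_le_card_of_surjective f hf
    _ = p ^ (rank K + 1) := by
        rw [Nat.card_prod, Nat.card_zmod, Nat.card_fun, Nat.card_zmod, Nat.card_fin, pow_succ,
          mul_comm]

/-- **Index argument.** If `H` contains the `p`-th powers and `(p-1)/2` units are independent
modulo `H`, then every element of `H` is a `p`-th power. -/
theorem eq_pow_of_mem_of_independent (hodd : p ≠ 2) (H : Subgroup (𝓞 K)ˣ)
    (hH : ∀ v : (𝓞 K)ˣ, v ^ p ∈ H) (w : Fin ((p - 1) / 2) → (𝓞 K)ˣ)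
    (hind : ∀ c : Fin ((p - 1) / 2) → ℤ, ∏ i, w i ^ c i ∈ H → ∀ i, (p : ℤ) ∣ c i) :
    ∀ u ∈ H, ∃ v : (𝓞 K)ˣ, u = v ^ p := by
  have hPH : pthPowers K p ≤ H := by
    intro u hu
    obtain ⟨v, rfl⟩ := (mem_pthPowers K).1 hu
    exact hH v
  obtain ⟨hfin, hcard⟩ := card_quot_pthPowers_le (p := p) K
  rw [rank_add_one K hodd] at hcard
  haveI : (pthPowers K p).FiniteIndex := Subgroup.finiteIndex_of_finite_quotient
  haveI : H.FiniteIndex := Subgroup.finiteIndex_of_le hPH
  haveI : Finite ((𝓞 K)ˣ ⧸ H) := Subgroup.finite_quotient_of_finiteIndex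
  -- injection
  let g : (Fin ((p - 1) / 2) → ZMod p) → (𝓞 K)ˣ ⧸ H := fun c =>
    QuotientGroup.mk (∏ i, w i ^ ((c i).val : ℤ))
  have hg : Function.Injective g := by
    intro c d hcd
    simp only [g] at hcd
    rw [QuotientGroup.eq] at hcd
    have h1 : (∏ i, w i ^ ((c i).val : ℤ))⁻¹ * ∏ i, w i ^ ((d i).val : ℤ) =
        ∏ i, w i ^ (((d i).val : ℤ) - ((c i).val : ℤ)) := by
      rw [← Finset.prod_inv_distrib, ← Finset.prod_mul_distrib]
      refine Finset.prod_congr rfl fun i _ => ?_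
      rw [zpow_sub, mul_comm]
    rw [h1] at hcd
    have h2 := hind _ hcd
    funext i
    have h3 := h2 i
    have h4 : (((d i).val : ℤ) : ZMod p) = (((c i).val : ℤ) : ZMod p) := by
      rw [← sub_eq_zero, ← Int.cast_sub, ZMod.intCast_zmod_eq_zero_iff_dvd]
      exact h3
    simpa using h4.symm
  have hle : p ^ ((p - 1) / 2) ≤ Nat.card ((𝓞 K)ˣ ⧸ H) := by
    calc p ^ ((p - 1) / 2) = Nat.card (Fin ((p - 1) / 2) → ZMod p) := by
          rw [Nat.card_fun, Nat.card_zmod, Nat.card_fin]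
      _ ≤ _ := Nat.card_le_card_of_injective g hg
  have hidx := Subgroup.relIndex_mul_index hPH
  rw [Subgroup.index_eq_card H, Subgroup.index_eq_card (pthPowers K p)] at hidx
  have hpos : 0 < Nat.card ((𝓞 K)ˣ ⧸ H) := Nat.card_pos
  have hrel : (pthPowers K p).relIndex H = 1 := by
    have h0 : (pthPowers K p).relIndex H ≠ 0 := by
      intro h0
      rw [h0, zero_mul] at hidx
      have : 0 < Nat.card ((𝓞 K)ˣ ⧸ pthPowers K p) := Nat.card_pos
      omega
    have h1 : (pthPowers K p).relIndex H * Nat.card ((𝓞 K)ˣ ⧸ H) ≤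
        1 * Nat.card ((𝓞 K)ˣ ⧸ H) := by
      rw [hidx, one_mul]; exact hcard.trans hle
    have := Nat.le_of_mul_le_mul_right h1 hpos
    omega
  have hHP : H ≤ pthPowers K p := Subgroup.relIndex_eq_one.1 hrel
  intro u hu
  exact (mem_pthPowers K).1 (hHP hu)

end Fermat.Agent.Kummer
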