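import Mathlib
import Fermat.Agent.Kummer.Basic
import Fermat.Agent.Kummer.KLDefs
import Fermat.Agent.Kummer.UnitIndex

/-!
# Kummer's lemma, piece C2 (helper3): from the explicit computation `KL_Data p` to Kummer's lemma

Generic in the odd prime `p`.
-/

set_option autoImplicit false
set_option maxHeartbeats 400000
set_option linter.unusedSectionVars false
set_option linter.style.haveILetI false

namespace Fermat.Agent.Kummer

open NumberField Polynomial Finset

section Poly

variable {p : ℕ} [hp : Fact p.Prime]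

lemma KL_cyclotomic_zmod : cyclotomic p (ZMod p) = (X - 1 : (ZMod p)[X]) ^ (p - 1) := by
  have h := cyclotomic_mul_prime_pow_eq (ZMod p) (p := p) (m := 1)
    (fun h => hp.out.one_lt.ne' (Nat.dvd_one.1 h)) (k := 1) one_pos
  simpa using h

lemma KL_map_f {R S : Type*} [CommRing R] [CommRing S] (φ : R →+* S) (j : ℕ) :
    (KL_f R j).map φ = KL_f S j := by
  unfold KL_f
  split_ifs <;> simp [Polynomial.map_sum]

lemma KL_eval_one_f (R : Type*) [CommRing R] (j : ℕ) : (KL_f R j).eval 1 = (j + 1 : R) := by
  unfold KL_f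
  split_ifs with h
  · subst h; simp
  · simp [eval_finsetSum]

/-- "`L` is a logarithmic derivative of `F` modulo `I`". -/
def KL_IsDlog (I F L : (ZMod p)[X]) : Prop := I ∣ F * L - derivative F

lemma KL_isDlog_one (I : (ZMod p)[X]) : KL_IsDlog I 1 0 := by
  simp [KL_IsDlog]

lemma KL_isDlog_mul {I F G L M : (ZMod p)[X]} (hF : KL_IsDlog I F L) (hG : KL_IsDlog I G M) :
    KL_IsDlog I (F * G) (L + M) := by
  unfold KL_IsDlog at *
  have : F * G * (L + M) - derivative (F * G) =
      G * (F * L - derivative F) + F * (G * M - derivative G) := by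
    rw [derivative_mul]; ring
  rw [this]
  exact dvd_add (dvd_mul_of_dvd_right hF _) (dvd_mul_of_dvd_right hG _)

lemma KL_isDlog_pow {I F L : (ZMod p)[X]} (hF : KL_IsDlog I F L) (n : ℕ) :
    KL_IsDlog I (F ^ n) (C (n : ZMod p) * L) := by
  induction n with
  | zero => simpa using KL_isDlog_one I
  | succ k ih =>
    have := KL_isDlog_mul ih hF
    rw [← pow_succ] at this
    convert this using 1
    push_cast
    rw [map_add, map_one]
    ring

lemma KL_isDlog_prod {ι : Type*} (s : Finset ι) {I : (ZMod p)[X]} (F L : ι → (ZMod p)[X])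
    (h : ∀ i ∈ s, KL_IsDlog I (F i) (L i)) : KL_IsDlog I (∏ i ∈ s, F i) (∑ i ∈ s, L i) := by
  classical
  induction s using Finset.induction_on with
  | empty => simpa using KL_isDlog_one I
  | insert a s ha ih =>
    rw [Finset.prod_insert ha, Finset.sum_insert ha]
    exact KL_isDlog_mul (h a (Finset.mem_insert_self a s))
      (ih fun i hi => h i (Finset.mem_insert_of_mem hi))

/-- The core polynomial lemma: if `∏ f_j ^ c_j` is congruent to a constant modulo `(X-1)^(p-1)`
then all exponents vanish modulo `p`. -/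
lemma KL_core (hD : KL_Data p) (hodd : p ≠ 2) (c : Fin ((p - 1) / 2) → ℕ) (n : ZMod p)
    (h : (X - 1 : (ZMod p)[X]) ^ (p - 1) ∣
      ∏ j : Fin ((p - 1) / 2), KL_f (ZMod p) (j : ℕ) ^ c j - C n) :
    ∀ j, (c j : ZMod p) = 0 := by
  obtain ⟨L, hL1, hL2⟩ := hD
  set I : (ZMod p)[X] := (X - 1) ^ (p - 2) with hI
  set F : (ZMod p)[X] := ∏ j : Fin ((p - 1) / 2), KL_f (ZMod p) (j : ℕ) ^ c j with hF
  -- derivative of F is divisible by I
  have h1 : I ∣ derivative F := by
    have := pow_sub_one_dvd_derivative_of_pow_dvd h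
    rw [derivative_sub, derivative_C, sub_zero] at this
    have e : p - 1 - 1 = p - 2 := by omega
    rwa [e] at this
  -- dlog
  have h2 : KL_IsDlog I F (∑ j, C (c j : ZMod p) * L j) :=
    KL_isDlog_prod _ _ _ fun j _ => KL_isDlog_pow (hL1 j) (c j)
  have h3 : I ∣ F * ∑ j, C (c j : ZMod p) * L j := by
    have := dvd_add h2 h1
    simpa [KL_IsDlog] using this
  -- F is coprime to X - 1
  have hF1 : F.eval 1 ≠ 0 := by
    rw [hF, eval_prod]
    refine Finset.prod_ne_zero_iff.2 fun j _ => ?_
    rw [eval_pow, KL_eval_one_f]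
    refine pow_ne_zero _ ?_
    have hj : (j : ℕ) + 1 < p := by
      have := j.2
      have h2 : 2 ≤ p := hp.out.two_le
      omega
    have : (((j : ℕ) + 1 : ℕ) : ZMod p) ≠ 0 := by
      rw [Ne, ZMod.natCast_eq_zero_iff]
      exact fun hdvd => absurd (Nat.le_of_dvd (Nat.succ_pos _) hdvd) (by omega)
    simpa using this
  have hcop : IsCoprime I F := by
    rw [hI]
    refine IsCoprime.pow_left ?_
    have hirr : Irreducible (X - 1 : (ZMod p)[X]) := by
      have := irreducible_X_sub_C (1 : ZMod p)
      simpa using this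
    rw [hirr.coprime_iff_not_dvd]
    intro hdvd
    have : (X - C (1 : ZMod p)) ∣ F := by simpa using hdvd
    rw [dvd_iff_isRoot] at this
    exact hF1 this
  have h4 : I ∣ ∑ j, C (c j : ZMod p) * L j := hcop.dvd_of_dvd_mul_left h3
  have := hL2 (fun j => (c j : ZMod p)) h4
  intro j
  exact congrFun this j

end Poly

end Fermat.Agent.Kummer
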