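import Mathlib
import Fermat.Agent.Kummer.KLDefs

/-!
# Helper lemmas for the explicit computations `KL_Data p`
-/

set_option autoImplicit false

open Polynomial

namespace Fermat.Agent.Kummer

/-- The polynomial `∑ k < n, a k X^k`. -/
noncomputable def KL_poly {R : Type*} [CommRing R] (n : ℕ) (a : ℕ → R) : R[X] :=
  ∑ k ∈ Finset.range n, C (a k) * X ^ k

theorem KL_poly_coeff {R : Type*} [CommRing R] (n : ℕ) (a : ℕ → R) (k : ℕ) :
    (KL_poly n a).coeff k = if k < n then a k else 0 := by
  unfold KL_poly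
  rw [finsetSum_coeff]
  simp only [coeff_C_mul_X_pow]
  rw [Finset.sum_ite_eq (Finset.range n) k a]
  simp

theorem KL_poly_degree_lt {R : Type*} [CommRing R] (n : ℕ) (a : ℕ → R) :
    (KL_poly n a).degree < n := by
  rw [degree_lt_iff_coeff_zero]
  intro k hk
  rw [KL_poly_coeff, if_neg (not_lt.mpr hk)]

theorem KL_poly_eq_zero_of_dvd {R : Type*} [CommRing R] [IsDomain R] (n : ℕ) (a : ℕ → R)
    (h : (X - 1 : R[X]) ^ n ∣ KL_poly n a) : ∀ k < n, a k = 0 := by
  have hdeg : (KL_poly n a).degree < ((X - 1 : R[X]) ^ n).degree := by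
    have h1 : ((X - 1 : R[X]) ^ n).degree = n := by
      have : (X - 1 : R[X]) = X - C 1 := by simp
      rw [this, degree_pow, degree_X_sub_C]
      simp
    rw [h1]
    exact KL_poly_degree_lt n a
  have h0 : KL_poly n a = 0 := eq_zero_of_dvd_of_degree_lt h hdeg
  intro k hk
  have := KL_poly_coeff n a k
  rw [h0, coeff_zero, if_pos hk] at this
  exact this.symm

theorem KL_sum_C_mul_poly {R : Type*} [CommRing R] {m : ℕ} (n : ℕ) (c : Fin m → R)
    (a : Fin m → ℕ → R) :
    ∑ j, C (c j) * KL_poly n (a j) = KL_poly n (fun k => ∑ j, c j * a j k) := by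
  unfold KL_poly
  simp only [Finset.mul_sum, map_sum, Finset.sum_mul, map_mul]
  rw [Finset.sum_comm]
  refine Finset.sum_congr rfl fun k _ => Finset.sum_congr rfl fun j _ => ?_
  ring

end Fermat.Agent.Kummer
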