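import Mathlib
import Fermat.Agent.Kummer.KLDefs
import Fermat.Agent.Kummer.KLDataLib

/-!
# `KL_Data 11`: the explicit polynomial computation for Kummer's lemma at `p = 11`
(generated from `tools/kldata.py`; all certificates are checked by `ring1`).
-/

set_option autoImplicit false
set_option linter.unusedSimpArgs false
set_option linter.style.longLine false

open Polynomial

namespace Fermat.Agent.Kummer

/-- Coefficient table of the logarithmic derivatives `f_j' / f_j` modulo `((X-1)^9, 11)`. -/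
def KL_tbl_eleven (j : Fin 5) (k : ℕ) : ZMod 11 :=
  match j with
  | ⟨0, _⟩ => ([9, 8, 7, 6, 5, 4, 3, 2, 1] : List (ZMod 11)).getD k 0
  | ⟨1, _⟩ => ([10, 8, 8, 6, 6, 4, 4, 2, 2] : List (ZMod 11)).getD k 0
  | ⟨2, _⟩ => ([9, 9, 6, 6, 6, 3, 3, 3, 0] : List (ZMod 11)).getD k 0
  | ⟨3, _⟩ => ([8, 8, 8, 4, 4, 4, 4, 0, 0] : List (ZMod 11)).getD k 0
  | ⟨4, _⟩ => ([7, 2, 8, 3, 9, 9, 4, 10, 5] : List (ZMod 11)).getD k 0

theorem KL_data_eleven : KL_Data 11 := by
  have : Fact (Nat.Prime 11) := ⟨by norm_num⟩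
  have hp : (((11 : ℕ) : ZMod 11)) = 0 := ZMod.natCast_self 11
  have hpX : (((11 : ℕ) : (ZMod 11)[X])) = 0 := by rw [← map_natCast (C : ZMod 11 →+* (ZMod 11)[X]), hp, map_zero]
  refine ⟨fun j => KL_poly 9 (KL_tbl_eleven j), ?_, ?_⟩
  · intro j
    fin_cases j
    · refine ⟨1, ?_⟩
      simp only [KL_f, KL_poly, KL_tbl_eleven, Finset.sum_range_succ, Finset.sum_range_zero, List.getD_cons_zero, List.getD_cons_succ, derivative_add, derivative_X_pow, derivative_X, derivative_one, map_ofNat, map_one, map_zero, map_natCast, Nat.cast_ofNat, Fin.zero_eta, Fin.mk_one, Fin.reduceFinMk, Fin.isValue, Fin.val_zero, Fin.val_one, Fin.val_two]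
      norm_num
      try simp only [map_ofNat]
      push_cast at hpX
      linear_combination (4 * X ^ 2 + (-7) * X ^ 3 + 12 * X ^ 4 + (-11) * X ^ 5 + 8 * X ^ 6 + (-3) * X ^ 7 + 1 * X ^ 8) * hpX
    · refine ⟨2, ?_⟩
      simp only [KL_f, KL_poly, KL_tbl_eleven, Finset.sum_range_succ, Finset.sum_range_zero, List.getD_cons_zero, List.getD_cons_succ, derivative_add, derivative_X_pow, derivative_X, derivative_one, map_ofNat, map_one, map_zero, map_natCast, Nat.cast_ofNat, Fin.zero_eta, Fin.mk_one, Fin.reduceFinMk, Fin.isValue, Fin.val_zero, Fin.val_one, Fin.val_two]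
      norm_num
      try simp only [map_ofNat]
      push_cast at hpX
      linear_combination (1 + 8 * X ^ 2 + (-14) * X ^ 3 + 24 * X ^ 4 + (-22) * X ^ 5 + 16 * X ^ 6 + (-6) * X ^ 7 + 2 * X ^ 8) * hpX
    · refine ⟨3, ?_⟩
      simp only [KL_f, KL_poly, KL_tbl_eleven, Finset.sum_range_succ, Finset.sum_range_zero, List.getD_cons_zero, List.getD_cons_succ, derivative_add, derivative_X_pow, derivative_X, derivative_one, map_ofNat, map_one, map_zero, map_natCast, Nat.cast_ofNat, Fin.zero_eta, Fin.mk_one, Fin.reduceFinMk, Fin.isValue, Fin.val_zero, Fin.val_one, Fin.val_two]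
      norm_num
      try simp only [map_ofNat]
      push_cast at hpX
      linear_combination (1 + (-1) * X + 12 * X ^ 2 + (-21) * X ^ 3 + 36 * X ^ 4 + (-33) * X ^ 5 + 24 * X ^ 6 + (-9) * X ^ 7 + 3 * X ^ 8) * hpX
    · refine ⟨4, ?_⟩
      simp only [KL_f, KL_poly, KL_tbl_eleven, Finset.sum_range_succ, Finset.sum_range_zero, List.getD_cons_zero, List.getD_cons_succ, derivative_add, derivative_X_pow, derivative_X, derivative_one, map_ofNat, map_one, map_zero, map_natCast, Nat.cast_ofNat, Fin.zero_eta, Fin.mk_one, Fin.reduceFinMk, Fin.isValue, Fin.val_zero, Fin.val_one, Fin.val_two]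
      norm_num
      try simp only [map_ofNat]
      push_cast at hpX
      linear_combination (1 + (-2) * X + 15 * X ^ 2 + (-28) * X ^ 3 + 48 * X ^ 4 + (-44) * X ^ 5 + 32 * X ^ 6 + (-12) * X ^ 7 + 4 * X ^ 8) * hpX
    · refine ⟨5 + 5 * X + 5 * X ^ 2 + 5 * X ^ 3, ?_⟩
      simp only [KL_f, KL_poly, KL_tbl_eleven, Finset.sum_range_succ, Finset.sum_range_zero, List.getD_cons_zero, List.getD_cons_succ, derivative_add, derivative_X_pow, derivative_X, derivative_one, map_ofNat, map_one, map_zero, map_natCast, Nat.cast_ofNat, Fin.zero_eta, Fin.mk_one, Fin.reduceFinMk, Fin.isValue, Fin.val_zero, Fin.val_one, Fin.val_two]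
      norm_num
      try simp only [map_ofNat]
      push_cast at hpX
      linear_combination (1 + (-3) * X + 14 * X ^ 2 + (-24) * X ^ 3 + 34 * X ^ 4 + (-19) * X ^ 5 + 3 * X ^ 6 + 25 * X ^ 7 + (-28) * X ^ 8 + 28 * X ^ 9 + (-11) * X ^ 10 + 5 * X ^ 11) * hpX
  · intro (c : Fin 5 → ZMod 11) h
    have h' : (X - 1 : (ZMod 11)[X]) ^ 9 ∣ ∑ j : Fin 5, C (c j) * KL_poly 9 (KL_tbl_eleven j) := h
    rw [KL_sum_C_mul_poly] at h'
    have hb := KL_poly_eq_zero_of_dvd (R := ZMod 11) 9 _ h'
    clear h h'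
    have h0 := hb 0 (by norm_num)
    have h1 := hb 1 (by norm_num)
    have h2 := hb 2 (by norm_num)
    have h3 := hb 3 (by norm_num)
    have h4 := hb 4 (by norm_num)
    have h5 := hb 5 (by norm_num)
    have h6 := hb 6 (by norm_num)
    have h7 := hb 7 (by norm_num)
    have h8 := hb 8 (by norm_num)
    simp only [Fin.sum_univ_five, KL_tbl_eleven, List.getD_cons_zero, List.getD_cons_succ, Fin.isValue, Fin.zero_eta, add_zero] at h0 h1 h2 h3 h4 h5 h6 h7 h8
    push_cast at hp
    clear hb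
    funext (j : Fin 5)
    fin_cases j
    · show c 0 = 0
      linear_combination (9) * h0 + (1) * h2 + (2) * h3 - ((9) * c 0 + (10) * c 1 + (9) * c 2 + (8) * c 3 + (7) * c 4) * hp
    · show c 1 = 0
      linear_combination (6) * h0 + (5) * h1 + (5) * h3 + (6) * h4 - ((14) * c 0 + (15) * c 1 + (15) * c 2 + (12) * c 3 + (11) * c 4) * hp
    · show c 2 = 0
      linear_combination (4) * h1 + (7) * h2 + (7) * h3 + (4) * h4 - ((13) * c 0 + (14) * c 1 + (13) * c 2 + (12) * c 3 + (11) * c 4) * hp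
    · show c 3 = 0
      linear_combination (8) * h0 + (3) * h1 + (3) * h2 + (8) * h3 - ((15) * c 0 + (16) * c 1 + (15) * c 2 + (13) * c 3 + (10) * c 4) * hp
    · show c 4 = 0
      linear_combination (7) * h0 + (2) * h2 + (2) * h3 + (2) * h4 - ((9) * c 0 + (10) * c 1 + (9) * c 2 + (8) * c 3 + (8) * c 4) * hp

end Fermat.Agent.Kummer
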