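import Mathlib
import Fermat.Agent.Kummer.KLDefs
import Fermat.Agent.Kummer.KLDataLib

/-!
# `KL_Data 13`: the explicit polynomial computation for Kummer's lemma at `p = 13`
(generated from `tools/kldata.py`; all certificates are checked by `ring1`).
-/

set_option autoImplicit false
set_option linter.unusedSimpArgs false
set_option linter.style.longLine false

open Polynomial

namespace Fermat.Agent.Kummer

/-- Coefficient table of the logarithmic derivatives `f_j' / f_j` modulo `((X-1)^11, 13)`. -/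
def KL_tbl_thirteen (j : Fin 6) (k : ℕ) : ZMod 13 :=
  match j with
  | ⟨0, _⟩ => ([11, 10, 9, 8, 7, 6, 5, 4, 3, 2, 1] : List (ZMod 13)).getD k 0
  | ⟨1, _⟩ => ([12, 10, 10, 8, 8, 6, 6, 4, 4, 2, 2] : List (ZMod 13)).getD k 0
  | ⟨2, _⟩ => ([11, 8, 5, 5, 2, 12, 12, 9, 6, 6, 3] : List (ZMod 13)).getD k 0
  | ⟨3, _⟩ => ([10, 6, 2, 11, 11, 7, 3, 12, 12, 8, 4] : List (ZMod 13)).getD k 0
  | ⟨4, _⟩ => ([9, 4, 4, 12, 7, 7, 2, 2, 10, 5, 5] : List (ZMod 13)).getD k 0
  | ⟨5, _⟩ => ([8, 2, 9, 3, 10, 4, 4, 11, 5, 12, 6] : List (ZMod 13)).getD k 0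

theorem KL_data_thirteen : KL_Data 13 := by
  have : Fact (Nat.Prime 13) := ⟨by norm_num⟩
  have hp : (((13 : ℕ) : ZMod 13)) = 0 := ZMod.natCast_self 13
  have hpX : (((13 : ℕ) : (ZMod 13)[X])) = 0 := by rw [← map_natCast (C : ZMod 13 →+* (ZMod 13)[X]), hp, map_zero]
  refine ⟨fun j => KL_poly 11 (KL_tbl_thirteen j), ?_, ?_⟩
  · intro j
    fin_cases j
    · refine ⟨1, ?_⟩
      simp only [KL_f, KL_poly, KL_tbl_thirteen, Finset.sum_range_succ, Finset.sum_range_zero, List.getD_cons_zero, List.getD_cons_succ, derivative_add, derivative_X_pow, derivative_X, derivative_one, map_ofNat, map_one, map_zero, map_natCast, Nat.cast_ofNat, Fin.zero_eta, Fin.mk_one, Fin.reduceFinMk, Fin.isValue, Fin.val_zero, Fin.val_one, Fin.val_two]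
      norm_num
      try simp only [map_ofNat]
      push_cast at hpX
      linear_combination (5 * X ^ 2 + (-12) * X ^ 3 + 26 * X ^ 4 + (-35) * X ^ 5 + 36 * X ^ 6 + (-25) * X ^ 7 + 13 * X ^ 8 + (-4) * X ^ 9 + 1 * X ^ 10) * hpX
    · refine ⟨2, ?_⟩
      simp only [KL_f, KL_poly, KL_tbl_thirteen, Finset.sum_range_succ, Finset.sum_range_zero, List.getD_cons_zero, List.getD_cons_succ, derivative_add, derivative_X_pow, derivative_X, derivative_one, map_ofNat, map_one, map_zero, map_natCast, Nat.cast_ofNat, Fin.zero_eta, Fin.mk_one, Fin.reduceFinMk, Fin.isValue, Fin.val_zero, Fin.val_one, Fin.val_two]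
      norm_num
      try simp only [map_ofNat]
      push_cast at hpX
      linear_combination (1 + 10 * X ^ 2 + (-24) * X ^ 3 + 52 * X ^ 4 + (-70) * X ^ 5 + 72 * X ^ 6 + (-50) * X ^ 7 + 26 * X ^ 8 + (-8) * X ^ 9 + 2 * X ^ 10) * hpX
    · refine ⟨3 + 3 * X, ?_⟩
      simp only [KL_f, KL_poly, KL_tbl_thirteen, Finset.sum_range_succ, Finset.sum_range_zero, List.getD_cons_zero, List.getD_cons_succ, derivative_add, derivative_X_pow, derivative_X, derivative_one, map_ofNat, map_one, map_zero, map_natCast, Nat.cast_ofNat, Fin.zero_eta, Fin.mk_one, Fin.reduceFinMk, Fin.isValue, Fin.val_zero, Fin.val_one, Fin.val_two]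
      norm_num
      try simp only [map_ofNat]
      push_cast at hpX
      linear_combination (1 + (-1) * X + 12 * X ^ 2 + (-24) * X ^ 3 + 39 * X ^ 4 + (-29) * X ^ 5 + 2 * X ^ 6 + 33 * X ^ 7 + (-36) * X ^ 8 + 27 * X ^ 9 + (-9) * X ^ 10 + 3 * X ^ 11) * hpX
    · refine ⟨4 + 4 * X + 4 * X ^ 2, ?_⟩
      simp only [KL_f, KL_poly, KL_tbl_thirteen, Finset.sum_range_succ, Finset.sum_range_zero, List.getD_cons_zero, List.getD_cons_succ, derivative_add, derivative_X_pow, derivative_X, derivative_one, map_ofNat, map_one, map_zero, map_natCast, Nat.cast_ofNat, Fin.zero_eta, Fin.mk_one, Fin.reduceFinMk, Fin.isValue, Fin.val_zero, Fin.val_one, Fin.val_two]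
      norm_num
      try simp only [map_ofNat]
      push_cast at hpX
      linear_combination (1 + (-2) * X + 15 * X ^ 2 + (-35) * X ^ 3 + 70 * X ^ 4 + (-89) * X ^ 5 + 104 * X ^ 6 + (-99) * X ^ 7 + 94 * X ^ 8 + (-65) * X ^ 9 + 40 * X ^ 10 + (-12) * X ^ 11 + 4 * X ^ 12) * hpX
    · refine ⟨5 + 5 * X + 5 * X ^ 3, ?_⟩
      simp only [KL_f, KL_poly, KL_tbl_thirteen, Finset.sum_range_succ, Finset.sum_range_zero, List.getD_cons_zero, List.getD_cons_succ, derivative_add, derivative_X_pow, derivative_X, derivative_one, map_ofNat, map_one, map_zero, map_natCast, Nat.cast_ofNat, Fin.zero_eta, Fin.mk_one, Fin.reduceFinMk, Fin.isValue, Fin.val_zero, Fin.val_one, Fin.val_two]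
      norm_num
      try simp only [map_ofNat]
      push_cast at hpX
      linear_combination (1 + (-3) * X + 18 * X ^ 2 + (-40) * X ^ 3 + 62 * X ^ 4 + (-27) * X ^ 5 + (-61) * X ^ 6 + 180 * X ^ 7 + (-239) * X ^ 8 + 222 * X ^ 9 + (-142) * X ^ 10 + 69 * X ^ 11 + (-20) * X ^ 12 + 5 * X ^ 13) * hpX
    · refine ⟨6 + 6 * X + 6 * X ^ 2 + 6 * X ^ 3 + 6 * X ^ 4, ?_⟩
      simp only [KL_f, KL_poly, KL_tbl_thirteen, Finset.sum_range_succ, Finset.sum_range_zero, List.getD_cons_zero, List.getD_cons_succ, derivative_add, derivative_X_pow, derivative_X, derivative_one, map_ofNat, map_one, map_zero, map_natCast, Nat.cast_ofNat, Fin.zero_eta, Fin.mk_one, Fin.reduceFinMk, Fin.isValue, Fin.val_zero, Fin.val_one, Fin.val_two]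
      norm_num
      try simp only [map_ofNat]
      push_cast at hpX
      linear_combination (1 + (-4) * X + 22 * X ^ 2 + (-54) * X ^ 3 + 99 * X ^ 4 + (-114) * X ^ 5 + 104 * X ^ 6 + (-73) * X ^ 7 + 79 * X ^ 8 + (-98) * X ^ 9 + 120 * X ^ 10 + (-94) * X ^ 11 + 58 * X ^ 12 + (-19) * X ^ 13 + 6 * X ^ 14) * hpX
  · intro (c : Fin 6 → ZMod 13) h
    have h' : (X - 1 : (ZMod 13)[X]) ^ 11 ∣ ∑ j : Fin 6, C (c j) * KL_poly 11 (KL_tbl_thirteen j) := h
    rw [KL_sum_C_mul_poly] at h'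
    have hb := KL_poly_eq_zero_of_dvd (R := ZMod 13) 11 _ h'
    clear h h'
    have h0 := hb 0 (by norm_num)
    have h1 := hb 1 (by norm_num)
    have h2 := hb 2 (by norm_num)
    have h3 := hb 3 (by norm_num)
    have h4 := hb 4 (by norm_num)
    have h5 := hb 5 (by norm_num)
    have h6 := hb 6 (by norm_num)
    have h7 := hb 7 (by norm_num)
    have h8 := hb 8 (by norm_num)
    have h9 := hb 9 (by norm_num)
    have h10 := hb 10 (by norm_num)
    simp only [Fin.sum_univ_six, KL_tbl_thirteen, List.getD_cons_zero, List.getD_cons_succ, Fin.isValue, Fin.zero_eta, add_zero] at h0 h1 h2 h3 h4 h5 h6 h7 h8 h9 h10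
    push_cast at hp
    clear hb
    funext (j : Fin 6)
    fin_cases j
    · show c 0 = 0
      linear_combination (10) * h0 + (1) * h1 + (1) * h2 + (1) * h3 + (1) * h4 - ((11) * c 0 + (12) * c 1 + (10) * c 2 + (10) * c 3 + (9) * c 4 + (8) * c 5) * hp
    · show c 1 = 0
      linear_combination (6) * h1 + (7) * h2 + (7) * h4 + (6) * h5 - ((16) * c 0 + (17) * c 1 + (13) * c 2 + (13) * c 3 + (11) * c 4 + (13) * c 5) * hp
    · show c 2 = 0
      linear_combination (9) * h0 + (4) * h1 + (4) * h2 + (9) * h3 - ((19) * c 0 + (20) * c 1 + (15) * c 2 + (17) * c 3 + (17) * c 4 + (11) * c 5) * hp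
    · show c 3 = 0
      linear_combination (10) * h0 + (3) * h2 + (3) * h3 + (10) * h5 - ((17) * c 0 + (18) * c 1 + (20) * c 2 + (16) * c 3 + (16) * c 4 + (12) * c 5) * hp
    · show c 4 = 0
      linear_combination (8) * h0 + (5) * h1 + (5) * h4 + (8) * h5 - ((17) * c 0 + (18) * c 1 + (18) * c 2 + (17) * c 3 + (14) * c 4 + (12) * c 5) * hp
    · show c 5 = 0
      linear_combination (11) * h0 + (11) * h1 + (2) * h3 + (2) * h4 + (2) * h5 - ((21) * c 0 + (22) * c 1 + (19) * c 2 + (18) * c 3 + (15) * c 4 + (11) * c 5) * hp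

end Fermat.Agent.Kummer
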