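import Mathlib
import Fermat.Agent.Kummer.KLDefs
import Fermat.Agent.Kummer.KLDataLib

/-!
# `KL_Data 5`: the explicit polynomial computation for Kummer's lemma at `p = 5`
(generated from `tools/kldata.py`; all certificates are checked by `ring1`).
-/

set_option autoImplicit false
set_option linter.unusedSimpArgs false
set_option linter.style.longLine false

open Polynomial

namespace Fermat.Agent.Kummer

/-- Coefficient table of the logarithmic derivatives `f_j' / f_j` modulo `((X-1)^3, 5)`. -/
def KL_tbl_five (j : Fin 2) (k : ℕ) : ZMod 5 :=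
  match j with
  | ⟨0, _⟩ => ([3, 2, 1] : List (ZMod 5)).getD k 0
  | ⟨1, _⟩ => ([4, 2, 2] : List (ZMod 5)).getD k 0

theorem KL_data_five : KL_Data 5 := by
  have : Fact (Nat.Prime 5) := ⟨by norm_num⟩
  have hp : (((5 : ℕ) : ZMod 5)) = 0 := ZMod.natCast_self 5
  have hpX : (((5 : ℕ) : (ZMod 5)[X])) = 0 := by rw [← map_natCast (C : ZMod 5 →+* (ZMod 5)[X]), hp, map_zero]
  refine ⟨fun j => KL_poly 3 (KL_tbl_five j), ?_, ?_⟩
  · intro j
    fin_cases j
    · refine ⟨1, ?_⟩
      simp only [KL_f, KL_poly, KL_tbl_five, Finset.sum_range_succ, Finset.sum_range_zero, List.getD_cons_zero, List.getD_cons_succ, derivative_add, derivative_X_pow, derivative_X, derivative_one, map_ofNat, map_one, map_zero, map_natCast, Nat.cast_ofNat, Fin.zero_eta, Fin.mk_one, Fin.reduceFinMk, Fin.isValue, Fin.val_zero, Fin.val_one, Fin.val_two]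
      norm_num
      try simp only [map_ofNat]
      push_cast at hpX
      linear_combination (1 * X ^ 2) * hpX
    · refine ⟨2, ?_⟩
      simp only [KL_f, KL_poly, KL_tbl_five, Finset.sum_range_succ, Finset.sum_range_zero, List.getD_cons_zero, List.getD_cons_succ, derivative_add, derivative_X_pow, derivative_X, derivative_one, map_ofNat, map_one, map_zero, map_natCast, Nat.cast_ofNat, Fin.zero_eta, Fin.mk_one, Fin.reduceFinMk, Fin.isValue, Fin.val_zero, Fin.val_one, Fin.val_two]
      norm_num
      try simp only [map_ofNat]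
      push_cast at hpX
      linear_combination (1 + 2 * X ^ 2) * hpX
  · intro (c : Fin 2 → ZMod 5) h
    have h' : (X - 1 : (ZMod 5)[X]) ^ 3 ∣ ∑ j : Fin 2, C (c j) * KL_poly 3 (KL_tbl_five j) := h
    rw [KL_sum_C_mul_poly] at h'
    have hb := KL_poly_eq_zero_of_dvd (R := ZMod 5) 3 _ h'
    clear h h'
    have h0 := hb 0 (by norm_num)
    have h1 := hb 1 (by norm_num)
    have h2 := hb 2 (by norm_num)
    simp only [Fin.sum_univ_two, KL_tbl_five, List.getD_cons_zero, List.getD_cons_succ, Fin.isValue, Fin.zero_eta, add_zero] at h0 h1 h2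
    push_cast at hp
    clear hb
    funext (j : Fin 2)
    fin_cases j
    · show c 0 = 0
      linear_combination (4) * h0 + (2) * h1 - ((3) * c 0 + (4) * c 1) * hp
    · show c 1 = 0
      linear_combination (1) * h0 + (1) * h1 - ((1) * c 0 + (1) * c 1) * hp

end Fermat.Agent.Kummer
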