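import Mathlib
import Fermat.Agent.Kummer.KLDefs
import Fermat.Agent.Kummer.KLDataLib

/-!
# `KL_Data 7`: the explicit polynomial computation for Kummer's lemma at `p = 7`
(generated from `tools/kldata.py`; all certificates are checked by `ring1`).
-/

set_option autoImplicit false
set_option linter.unusedSimpArgs false
set_option linter.style.longLine false

open Polynomial

namespace Fermat.Agent.Kummer

/-- Coefficient table of the logarithmic derivatives `f_j' / f_j` modulo `((X-1)^5, 7)`. -/
def KL_tbl_seven (j : Fin 3) (k : ℕ) : ZMod 7 :=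
  match j with
  | ⟨0, _⟩ => ([5, 4, 3, 2, 1] : List (ZMod 7)).getD k 0
  | ⟨1, _⟩ => ([6, 4, 4, 2, 2] : List (ZMod 7)).getD k 0
  | ⟨2, _⟩ => ([5, 2, 6, 6, 3] : List (ZMod 7)).getD k 0

theorem KL_data_seven : KL_Data 7 := by
  have : Fact (Nat.Prime 7) := ⟨by norm_num⟩
  have hp : (((7 : ℕ) : ZMod 7)) = 0 := ZMod.natCast_self 7
  have hpX : (((7 : ℕ) : (ZMod 7)[X])) = 0 := by rw [← map_natCast (C : ZMod 7 →+* (ZMod 7)[X]), hp, map_zero]
  refine ⟨fun j => KL_poly 5 (KL_tbl_seven j), ?_, ?_⟩
  · intro j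
    fin_cases j
    · refine ⟨1, ?_⟩
      simp only [KL_f, KL_poly, KL_tbl_seven, Finset.sum_range_succ, Finset.sum_range_zero, List.getD_cons_zero, List.getD_cons_succ, derivative_add, derivative_X_pow, derivative_X, derivative_one, map_ofNat, map_one, map_zero, map_natCast, Nat.cast_ofNat, Fin.zero_eta, Fin.mk_one, Fin.reduceFinMk, Fin.isValue, Fin.val_zero, Fin.val_one, Fin.val_two]
      norm_num
      try simp only [map_ofNat]
      push_cast at hpX
      linear_combination (2 * X ^ 2 + (-1) * X ^ 3 + 1 * X ^ 4) * hpX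
    · refine ⟨2, ?_⟩
      simp only [KL_f, KL_poly, KL_tbl_seven, Finset.sum_range_succ, Finset.sum_range_zero, List.getD_cons_zero, List.getD_cons_succ, derivative_add, derivative_X_pow, derivative_X, derivative_one, map_ofNat, map_one, map_zero, map_natCast, Nat.cast_ofNat, Fin.zero_eta, Fin.mk_one, Fin.reduceFinMk, Fin.isValue, Fin.val_zero, Fin.val_one, Fin.val_two]
      norm_num
      try simp only [map_ofNat]
      push_cast at hpX
      linear_combination (1 + 4 * X ^ 2 + (-2) * X ^ 3 + 2 * X ^ 4) * hpX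
    · refine ⟨3 + 3 * X, ?_⟩
      simp only [KL_f, KL_poly, KL_tbl_seven, Finset.sum_range_succ, Finset.sum_range_zero, List.getD_cons_zero, List.getD_cons_succ, derivative_add, derivative_X_pow, derivative_X, derivative_one, map_ofNat, map_one, map_zero, map_natCast, Nat.cast_ofNat, Fin.zero_eta, Fin.mk_one, Fin.reduceFinMk, Fin.isValue, Fin.val_zero, Fin.val_one, Fin.val_two]
      norm_num
      try simp only [map_ofNat]
      push_cast at hpX
      linear_combination (1 + (-1) * X + 4 * X ^ 2 + 2 * X ^ 3 + 3 * X ^ 5) * hpX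
  · intro (c : Fin 3 → ZMod 7) h
    have h' : (X - 1 : (ZMod 7)[X]) ^ 5 ∣ ∑ j : Fin 3, C (c j) * KL_poly 5 (KL_tbl_seven j) := h
    rw [KL_sum_C_mul_poly] at h'
    have hb := KL_poly_eq_zero_of_dvd (R := ZMod 7) 5 _ h'
    clear h h'
    have h0 := hb 0 (by norm_num)
    have h1 := hb 1 (by norm_num)
    have h2 := hb 2 (by norm_num)
    have h3 := hb 3 (by norm_num)
    have h4 := hb 4 (by norm_num)
    simp only [Fin.sum_univ_three, KL_tbl_seven, List.getD_cons_zero, List.getD_cons_succ, Fin.isValue, Fin.zero_eta, add_zero] at h0 h1 h2 h3 h4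
    push_cast at hp
    clear hb
    funext (j : Fin 3)
    fin_cases j
    · show c 0 = 0
      linear_combination (5) * h0 + (2) * h1 + (1) * h2 - ((5) * c 0 + (6) * c 1 + (5) * c 2) * hp
    · show c 1 = 0
      linear_combination (4) * h0 + (6) * h1 + (4) * h2 - ((8) * c 0 + (9) * c 1 + (8) * c 2) * hp
    · show c 2 = 0
      linear_combination (3) * h0 + (2) * h1 + (4) * h2 - ((5) * c 0 + (6) * c 1 + (6) * c 2) * hp

end Fermat.Agent.Kummer
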