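import Mathlib
import Fermat.Agent.Kummer.Basic
import Fermat.Agent.Kummer.KLDefs
import Fermat.Agent.Kummer.UnitIndex
import Fermat.Agent.Kummer.KLBridge

/-!
# Kummer's lemma, piece C2 (helper3): the number field side

From `KL_Data p` (explicit polynomial computation over `ZMod p`) to Kummer's lemma for `ℚ(ζ_p)`.
-/

set_option autoImplicit false
set_option maxHeartbeats 400000
set_option linter.unusedSectionVars false
set_option linter.style.haveILetI false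

namespace Fermat.Agent.Kummer

open NumberField Polynomial Finset

variable {p : ℕ} [hp : Fact p.Prime] {K : Type*} [Field K] [NumberField K]
  [hK : IsCyclotomicExtension {p} ℚ K] {ζ : K} (hζ : IsPrimitiveRoot ζ p)

/-- If `p ∣ Q(ζ)` in `𝓞 K` then `(X - 1)^(p-1) ∣ Q mod p`. -/
lemma KL_dvd_map_of_dvd_aeval (Q : ℤ[X]) (h : (p : 𝓞 K) ∣ aeval hζ.toInteger Q) :
    (X - 1 : (ZMod p)[X]) ^ (p - 1) ∣ Q.map (Int.castRingHom (ZMod p)) := by
  obtain ⟨y, hy⟩ := h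
  obtain ⟨G, rfl⟩ := exists_aeval_eq hζ y
  have h0 : aeval hζ.toInteger (Q - C (p : ℤ) * G) = 0 := by
    rw [map_sub, map_mul, aeval_C, hy]
    simp
  have h0' : aeval ζ (Q - C (p : ℤ) * G) = 0 := by
    have := congrArg (algebraMap (𝓞 K) K) h0
    rwa [← aeval_algebraMap_apply, map_zero] at this
  have hpos : 0 < p := hp.out.pos
  have hdvd : cyclotomic p ℤ ∣ Q - C (p : ℤ) * G := by
    rw [cyclotomic_eq_minpoly hζ hpos]
    exact minpoly.isIntegrallyClosed_dvd (hζ.isIntegral hpos) h0'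
  have := Polynomial.map_dvd (Int.castRingHom (ZMod p)) hdvd
  rw [map_cyclotomic, KL_cyclotomic_zmod] at this
  simpa using this

/-- The subgroup of units congruent to a rational integer modulo `p`. -/
def KL_intSubgroup (hζ : IsPrimitiveRoot ζ p) : Subgroup (𝓞 K)ˣ where
  carrier := {u | ∃ n : ℤ, (p : 𝓞 K) ∣ (u : 𝓞 K) - n}
  one_mem' := ⟨1, by simp⟩
  mul_mem' := by
    rintro u v ⟨n, hn⟩ ⟨m, hm⟩
    refine ⟨n * m, ?_⟩
    have : ((u * v : (𝓞 K)ˣ) : 𝓞 K) - ((n * m : ℤ) : 𝓞 K) =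
        (u : 𝓞 K) * ((v : 𝓞 K) - m) + m * ((u : 𝓞 K) - n) := by
      push_cast; ring
    rw [this]
    exact dvd_add (dvd_mul_of_dvd_right hm _) (dvd_mul_of_dvd_right hn _)
  inv_mem' := by
    rintro u ⟨n, hn⟩
    obtain ⟨m, hm⟩ := exists_int_pow_sub_dvd hζ ((u⁻¹ : (𝓞 K)ˣ) : 𝓞 K)
    refine ⟨n ^ (p - 1) * m, ?_⟩
    have hp1 : p - 1 + 1 = p := Nat.succ_pred_eq_of_pos hp.out.pos
    have hu : ((u⁻¹ : (𝓞 K)ˣ) : 𝓞 K) = (u : 𝓞 K) ^ (p - 1) * ((u⁻¹ : (𝓞 K)ˣ) : 𝓞 K) ^ p := by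
      have h1 : (u : 𝓞 K) * ((u⁻¹ : (𝓞 K)ˣ) : 𝓞 K) = 1 := by
        rw [← Units.val_mul, mul_inv_cancel, Units.val_one]
      calc ((u⁻¹ : (𝓞 K)ˣ) : 𝓞 K)
          = ((u : 𝓞 K) * ((u⁻¹ : (𝓞 K)ˣ) : 𝓞 K)) ^ (p - 1) * ((u⁻¹ : (𝓞 K)ˣ) : 𝓞 K) := by
            rw [h1, one_pow, one_mul]
        _ = (u : 𝓞 K) ^ (p - 1) * ((u⁻¹ : (𝓞 K)ˣ) : 𝓞 K) ^ (p - 1 + 1) := by
            rw [mul_pow, pow_succ]; ring
        _ = _ := by rw [hp1]
    have hpow : (p : 𝓞 K) ∣ (u : 𝓞 K) ^ (p - 1) - ((n : 𝓞 K)) ^ (p - 1) :=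
      dvd_trans hn (sub_dvd_pow_sub_pow _ _ _)
    have : ((u⁻¹ : (𝓞 K)ˣ) : 𝓞 K) - ((n ^ (p - 1) * m : ℤ) : 𝓞 K) =
        (u : 𝓞 K) ^ (p - 1) * (((u⁻¹ : (𝓞 K)ˣ) : 𝓞 K) ^ p - m) +
          m * ((u : 𝓞 K) ^ (p - 1) - ((n : 𝓞 K)) ^ (p - 1)) := by
      nth_rewrite 1 [hu]
      push_cast; ring
    rw [this]
    exact dvd_add (dvd_mul_of_dvd_right hm _) (dvd_mul_of_dvd_right hpow _)

lemma KL_mem_intSubgroup {u : (𝓞 K)ˣ} :
    u ∈ KL_intSubgroup hζ ↔ ∃ n : ℤ, (p : 𝓞 K) ∣ (u : 𝓞 K) - n := Iff.rfl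

lemma KL_pow_mem_intSubgroup (v : (𝓞 K)ˣ) : v ^ p ∈ KL_intSubgroup hζ := by
  obtain ⟨n, hn⟩ := exists_int_pow_sub_dvd hζ (v : 𝓞 K)
  exact ⟨n, by simpa using hn⟩

/-- The values `ζ, 1 + ζ, 1 + ζ + ζ², ...` are units. -/
lemma KL_isUnit_aeval_f {j : ℕ} (hj : j + 1 < p) : IsUnit (aeval hζ.toInteger (KL_f ℤ j)) := by
  have hz := hζ.toInteger_isPrimitiveRoot
  unfold KL_f
  split_ifs with h
  · rw [aeval_X]
    exact hz.isUnit hp.out.ne_zero
  · rw [map_sum]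
    simp only [map_pow, aeval_X]
    refine hz.geom_sum_isUnit hp.out.two_le ?_
    refine Nat.Coprime.symm ((Nat.Prime.coprime_iff_not_dvd hp.out).2 fun hdvd => ?_)
    exact absurd (Nat.le_of_dvd (Nat.succ_pos _) hdvd) (by omega)

/-- The independence statement needed by the index argument. -/
theorem KL_hind_of_data (hD : KL_Data p) (hodd : p ≠ 2)
    (w : Fin ((p - 1) / 2) → (𝓞 K)ˣ)
    (hw : ∀ j, (w j : 𝓞 K) = aeval hζ.toInteger (KL_f ℤ (j : ℕ)))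
    (c : Fin ((p - 1) / 2) → ℤ) (h : ∏ j, w j ^ c j ∈ KL_intSubgroup hζ) :
    ∀ j, (p : ℤ) ∣ c j := by
  have hp0 : (p : ℤ) ≠ 0 := by exact_mod_cast hp.out.ne_zero
  have hppos : (0 : ℤ) < p := by exact_mod_cast hp.out.pos
  -- split exponents
  set r : Fin ((p - 1) / 2) → ℕ := fun j => (c j % p).toNat with hr
  set q : Fin ((p - 1) / 2) → ℤ := fun j => c j / p with hq
  have hrq : ∀ j, c j = (r j : ℤ) + p * q j := by
    intro j
    simp only [hr, hq]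
    rw [Int.toNat_of_nonneg (Int.emod_nonneg _ hp0)]
    exact (Int.emod_add_mul_ediv (c j) p).symm
  have hrlt : ∀ j, r j < p := by
    intro j
    have := Int.emod_lt_of_pos (c j) hppos
    simp only [hr]
    omega
  set W : (𝓞 K)ˣ := ∏ j, w j ^ q j with hW
  have hprod : ∏ j, w j ^ c j = (∏ j, w j ^ r j) * W ^ p := by
    rw [hW, ← Finset.prod_pow, ← Finset.prod_mul_distrib]
    refine Finset.prod_congr rfl fun j _ => ?_
    rw [hrq j, zpow_add, zpow_natCast, zpow_mul, zpow_natCast]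
    congr 1
    rw [← zpow_natCast (w j) p, ← zpow_mul, ← zpow_natCast (w j ^ q j) p, ← zpow_mul, mul_comm]
  have hV : ∏ j, w j ^ r j ∈ KL_intSubgroup hζ := by
    have h1 : ∏ j, w j ^ r j = (∏ j, w j ^ c j) * (W ^ p)⁻¹ := by
      rw [hprod, mul_inv_cancel_right]
    rw [h1]
    exact Subgroup.mul_mem _ h (Subgroup.inv_mem _ (KL_pow_mem_intSubgroup hζ W))
  obtain ⟨n, hn⟩ := hV
  -- translate to polynomials
  have hval : ((∏ j, w j ^ r j : (𝓞 K)ˣ) : 𝓞 K) - n =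
      aeval hζ.toInteger ((∏ j : Fin ((p - 1) / 2), KL_f ℤ (j : ℕ) ^ r j) - C n) := by
    rw [map_sub, map_prod, aeval_C, Units.coe_prod]
    congr 1
    refine Finset.prod_congr rfl fun j _ => ?_
    rw [Units.val_pow_eq_pow_val, hw, map_pow]
  rw [hval] at hn
  have h2 := KL_dvd_map_of_dvd_aeval hζ _ hn
  rw [Polynomial.map_sub, Polynomial.map_prod, Polynomial.map_C] at h2
  simp only [Polynomial.map_pow, KL_map_f] at h2
  have h3 := KL_core hD hodd r _ h2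
  intro j
  have h4 := h3 j
  rw [ZMod.natCast_eq_zero_iff] at h4
  have h5 : r j = 0 := Nat.eq_zero_of_dvd_of_lt h4 (hrlt j)
  rw [hrq j, h5]
  simp

/-- **Kummer's lemma** for `ℚ(ζ_p)`, given the explicit computation `KL_Data p`. -/
theorem KL_kummer_lemma_of_data (hD : KL_Data p) (hodd : p ≠ 2)
    (K : Type*) [Field K] [NumberField K] [IsCyclotomicExtension {p} ℚ K]
    (u : (𝓞 K)ˣ) (n : ℤ) (h : (p : 𝓞 K) ∣ (u : 𝓞 K) - n) : ∃ v : (𝓞 K)ˣ, u = v ^ p := by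
  have hζ := IsCyclotomicExtension.zeta_spec p ℚ K
  have hunit : ∀ j : Fin ((p - 1) / 2), IsUnit (aeval hζ.toInteger (KL_f ℤ (j : ℕ))) := by
    intro j
    refine KL_isUnit_aeval_f hζ ?_
    have := j.2
    have h2 : 2 ≤ p := hp.out.two_le
    omega
  exact eq_pow_of_mem_of_independent K hodd (KL_intSubgroup hζ) (KL_pow_mem_intSubgroup hζ)
    (fun j => (hunit j).unit)
    (fun c hc => KL_hind_of_data hζ hD hodd (fun j => (hunit j).unit) (fun j => rfl) c hc)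
    u ⟨n, h⟩

end Fermat.Agent.Kummer
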