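import Mathlib

/-!
# Kummer's lemma, piece C (helper3): abstract group-theoretic step

If a commutative group `G` is generated by `m` elements and `e : Fin m → G` is a family that is
independent modulo `p`-th powers, then every element of `G` is a product of powers of the `e j`
times a `p`-th power.
-/

set_option autoImplicit false

namespace Fermat.Agent.Kummer

open Module

theorem KL_exists_prod_mul_pow_of_indep
    {G : Type*} [CommGroup G] (p : ℕ) [hp : Fact p.Prime] (m : ℕ)
    (g : Fin m → G) (hg : Subgroup.closure (Set.range g) = ⊤)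
    (e : Fin m → G)
    (he : ∀ c : Fin m → ℤ, (∃ v : G, ∏ j, e j ^ c j = v ^ p) → ∀ j, (p : ℤ) ∣ c j)
    (u : G) : ∃ (c : Fin m → ℤ) (v : G), u = (∏ j, e j ^ c j) * v ^ p := by
  classical
  have : NeZero p := ⟨hp.out.ne_zero⟩
  let A := Additive G
  let V := ModN A p
  let φ : A →+ V := ModN.mkQ p
  have hφsurj : Function.Surjective φ := Submodule.mkQ_surjective _
  have hφker : ∀ a : A, φ a = 0 ↔ ∃ b : A, a = p • b := by
    intro a
    change (Submodule.mkQ _ a = 0) ↔ _
    rw [Submodule.mkQ_apply, Submodule.Quotient.mk_eq_zero, LinearMap.mem_range]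
    constructor
    · rintro ⟨b, hb⟩
      refine ⟨b, ?_⟩
      rw [← hb]
      simp
    · rintro ⟨b, hb⟩
      refine ⟨b, ?_⟩
      rw [hb]
      simp
  have hsmul : ∀ (c : ℤ) (x : V), ((c : ZMod p)) • x = c • x := fun c x =>
    Int.cast_smul_eq_zsmul (ZMod p) c x
  -- the images of the generators span
  have hspan : Submodule.span (ZMod p) (Set.range (fun i => φ (Additive.ofMul (g i)))) = ⊤ := by
    rw [eq_top_iff]
    rintro x -
    obtain ⟨a, rfl⟩ := hφsurj x
    have ha : Additive.toMul a ∈ Subgroup.closure (Set.range g) := by rw [hg]; trivial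
    have : ∀ y ∈ Subgroup.closure (Set.range g),
        φ (Additive.ofMul y) ∈
          Submodule.span (ZMod p) (Set.range (fun i => φ (Additive.ofMul (g i)))) := by
      intro y hy
      induction hy using Subgroup.closure_induction with
      | mem y hy =>
        obtain ⟨i, rfl⟩ := hy
        exact Submodule.subset_span ⟨i, rfl⟩
      | one => simp
      | mul y z _ _ hy hz =>
        rw [ofMul_mul, map_add]
        exact Submodule.add_mem _ hy hz
      | inv y _ hy =>
        rw [ofMul_inv, map_neg]
        exact Submodule.neg_mem _ hy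
    exact this _ ha
  have hfin : Module.Finite (ZMod p) V :=
    ⟨hspan ▸ Submodule.fg_span (Set.finite_range _)⟩
  have hrank : finrank (ZMod p) V ≤ m := by
    simpa using finrank_le_of_span_eq_top hspan
  -- the images of the `e j` are linearly independent
  have hsum : ∀ c : Fin m → ℤ,
      ∑ j, (c j : ZMod p) • φ (Additive.ofMul (e j)) = φ (Additive.ofMul (∏ j, e j ^ c j)) := by
    intro c
    rw [ofMul_prod, map_sum]
    refine Finset.sum_congr rfl fun j _ => ?_
    rw [hsmul, ofMul_zpow, map_zsmul]
  have hli : LinearIndependent (ZMod p) (fun j => φ (Additive.ofMul (e j))) := by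
    rw [Fintype.linearIndependent_iff]
    intro c hc j
    have hc' : ∀ j, ((ZMod.cast (c j) : ℤ) : ZMod p) = c j := fun j => ZMod.intCast_zmod_cast _
    have h1 : ∑ j, (((ZMod.cast (c j) : ℤ)) : ZMod p) • φ (Additive.ofMul (e j)) = 0 := by
      simpa [hc'] using hc
    rw [hsum, hφker] at h1
    obtain ⟨b, hb⟩ := h1
    have h2 := he (fun j => (ZMod.cast (c j) : ℤ)) ⟨Additive.toMul b, by
      have := congrArg Additive.toMul hb
      rw [toMul_nsmul, toMul_ofMul] at this
      exact this⟩ j
    rw [← hc' j]
    exact (ZMod.intCast_zmod_eq_zero_iff_dvd _ _).mpr h2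
  have hcard : Fintype.card (Fin m) = finrank (ZMod p) V := by
    refine le_antisymm hli.fintype_card_le_finrank ?_
    simpa using hrank
  have hspan_e := hli.span_eq_top_of_card_eq_finrank' hcard
  have hu : φ (Additive.ofMul u) ∈ Submodule.span (ZMod p)
      (Set.range (fun j => φ (Additive.ofMul (e j)))) := by rw [hspan_e]; trivial
  rw [Submodule.mem_span_range_iff_exists_fun] at hu
  obtain ⟨c, hc⟩ := hu
  have hc' : ∀ j, ((ZMod.cast (c j) : ℤ) : ZMod p) = c j := fun j => ZMod.intCast_zmod_cast _
  have h1 : ∑ j, (((ZMod.cast (c j) : ℤ)) : ZMod p) • φ (Additive.ofMul (e j))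
      = φ (Additive.ofMul u) := by
    simpa [hc'] using hc
  rw [hsum, ← sub_eq_zero, ← map_sub, hφker] at h1
  obtain ⟨b, hb⟩ := h1
  refine ⟨fun j => (ZMod.cast (c j) : ℤ), (Additive.toMul b)⁻¹, ?_⟩
  have := congrArg Additive.toMul hb
  rw [toMul_nsmul, toMul_sub, toMul_ofMul, toMul_ofMul] at this
  rw [inv_pow, ← this]
  simp [div_eq_mul_inv]

end Fermat.Agent.Kummer
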