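import Fermat.Agent.Kummer.CaseII
import Fermat.Agent.Kummer.UnitIndex

/-!
# Kummer's lemma: generic reduction to a linear-algebra check (piece C2, generic part)

`intCong p K` is the subgroup of units of `𝓞 K` congruent to a rational integer modulo `p`.
We show that units `w i = f i (ζ - 1)` (`f i ∈ ℤ[T]`) are independent modulo `intCong p K` as soon as
the polynomials `f i' * ∏_{j ≠ i} f j` are linearly independent modulo `(p, T ^ (p - 2))`.
-/

set_option linter.unusedSectionVars false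
set_option linter.style.haveILetI false

namespace Fermat.Agent.Kummer

open NumberField Polynomial Finset

variable {p : ℕ} [hp : Fact p.Prime] {K : Type*} [Field K] [NumberField K]
  [hK : IsCyclotomicExtension {p} ℚ K] {ζ : K} (hζ : IsPrimitiveRoot ζ p)

local notation3 "l" => hζ.toInteger - 1

variable (p K) in
/-- Units congruent to a rational integer modulo `p`. -/
def intCong : Subgroup (𝓞 K)ˣ where
  carrier := {u | ∃ n : ℤ, (p : 𝓞 K) ∣ (u : 𝓞 K) - n}
  one_mem' := ⟨1, by simp⟩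
  mul_mem' := by
    rintro u v ⟨n, hn⟩ ⟨m, hm⟩
    refine ⟨n * m, ?_⟩
    have : ((u * v : (𝓞 K)ˣ) : 𝓞 K) - ((n * m : ℤ) : 𝓞 K) =
        ((u : 𝓞 K) - n) * v + n * ((v : 𝓞 K) - m) := by
      push_cast; ring
    rw [this]
    exact dvd_add (Dvd.dvd.mul_right hn _) (Dvd.dvd.mul_left hm _)
  inv_mem' := by
    rintro u ⟨n, hn⟩
    have hζ : IsPrimitiveRoot (IsCyclotomicExtension.zeta p ℚ K) p :=
      IsCyclotomicExtension.zeta_spec p ℚ K
    have hnp : ¬ (p : ℤ) ∣ n := by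
      intro h
      have h1 : (p : 𝓞 K) ∣ (n : 𝓞 K) := by
        obtain ⟨q, hq⟩ := h
        exact ⟨q, by rw [hq]; push_cast; ring⟩
      have h2 : (p : 𝓞 K) ∣ (u : 𝓞 K) := by
        have : (u : 𝓞 K) = ((u : 𝓞 K) - n) + n := by ring
        rw [this]; exact dvd_add hn h1
      have h3 : hζ.toInteger - 1 ∣ (u : 𝓞 K) := (lam_dvd_p hζ).trans h2
      exact (lam_prime hζ).not_isUnit (isUnit_of_dvd_unit h3 u.isUnit)
    have hcop : IsCoprime (p : ℤ) n :=
      (Nat.prime_iff_prime_int.1 hp.out).coprime_iff_not_dvd.2 hnp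
    obtain ⟨s, t, hst⟩ := hcop
    refine ⟨t, ?_⟩
    have hst' : (s : 𝓞 K) * p + t * n = 1 := by exact_mod_cast congrArg (Int.cast : ℤ → 𝓞 K) hst
    have huu : ((u⁻¹ : (𝓞 K)ˣ) : 𝓞 K) * u = 1 := by simp
    have : ((u⁻¹ : (𝓞 K)ˣ) : 𝓞 K) - (t : 𝓞 K) =
        (p : 𝓞 K) * (((u⁻¹ : (𝓞 K)ˣ) : 𝓞 K) * s) -
          ((u⁻¹ : (𝓞 K)ˣ) : 𝓞 K) * t * ((u : 𝓞 K) - n) := by
      linear_combination (-((u⁻¹ : (𝓞 K)ˣ) : 𝓞 K)) * hst' + (t : 𝓞 K) * huu
    rw [this]
    exact dvd_sub (dvd_mul_right _ _) (Dvd.dvd.mul_left hn _)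

lemma mem_intCong {u : (𝓞 K)ˣ} : u ∈ intCong p K ↔ ∃ n : ℤ, (p : 𝓞 K) ∣ (u : 𝓞 K) - n := Iff.rfl

/-- `p`-th powers are congruent to integers modulo `p`. -/
lemma pow_mem_intCong (v : (𝓞 K)ˣ) : v ^ p ∈ intCong p K := by
  have hζ : IsPrimitiveRoot (IsCyclotomicExtension.zeta p ℚ K) p :=
    IsCyclotomicExtension.zeta_spec p ℚ K
  obtain ⟨n, hn⟩ := exists_int_pow_sub_dvd hζ (v : 𝓞 K)
  exact ⟨n, by simpa using hn⟩

/-- If `F(ζ) ≡ n mod p` then `F ≡ n mod (p, Φ_p)`, i.e. `(X - 1)^(p-1) ∣ F - n` over `𝔽_p`. -/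
lemma X_sub_one_pow_dvd_of_dvd (F : ℤ[X]) (n : ℤ)
    (h : (p : 𝓞 K) ∣ aeval hζ.toInteger F - n) :
    (X - 1 : (ZMod p)[X]) ^ (p - 1) ∣ F.map (Int.castRingHom (ZMod p)) - C (n : ZMod p) := by
  obtain ⟨y, hy⟩ := h
  obtain ⟨G, rfl⟩ := exists_aeval_eq hζ y
  have h0 : aeval hζ.toInteger (F - C n - C (p : ℤ) * G) = 0 := by
    rw [map_sub, map_sub, map_mul, aeval_C, aeval_C]
    simp only [algebraMap_int_eq, eq_intCast, Int.cast_natCast]
    rw [hy]; ring
  have h1 : aeval ζ (F - C n - C (p : ℤ) * G) = 0 := by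
    have := congrArg (algebraMap (𝓞 K) K) h0
    rwa [map_zero, ← aeval_algebraMap_apply] at this
  have h2 : cyclotomic p ℤ ∣ F - C n - C (p : ℤ) * G := by
    rw [cyclotomic_eq_minpoly hζ hp.out.pos]
    exact minpoly.isIntegrallyClosed_dvd (hζ.isIntegral hp.out.pos) h1
  obtain ⟨Q, hQ⟩ := h2
  have h3 := congrArg (Polynomial.map (Int.castRingHom (ZMod p))) hQ
  rw [Polynomial.map_sub, Polynomial.map_sub, Polynomial.map_mul, Polynomial.map_mul,
    Polynomial.map_C, Polynomial.map_C, map_cyclotomic] at h3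
  simp only [eq_intCast, Int.cast_natCast, CharP.cast_eq_zero, C_0, zero_mul, sub_zero] at h3
  have hcyc : cyclotomic p (ZMod p) = (X - 1) ^ (p - 1) := by
    have := cyclotomic_mul_prime_pow_eq (ZMod p) (p := p) (m := 1)
      (by simpa using hp.out.one_lt.ne') (k := 1) one_pos
    simpa using this
  rw [hcyc] at h3
  exact ⟨_, h3⟩

/-- Variable change `T = X - 1`: if `F(ζ - 1) ≡ n mod p` then `T^(p-1) ∣ F - n` over `𝔽_p`. -/
lemma X_pow_dvd_of_dvd (F : ℤ[X]) (n : ℤ)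
    (h : (p : 𝓞 K) ∣ aeval (hζ.toInteger - 1) F - n) :
    (X : (ZMod p)[X]) ^ (p - 1) ∣ F.map (Int.castRingHom (ZMod p)) - C (n : ZMod p) := by
  have h1 : aeval hζ.toInteger (F.comp (X - 1)) = aeval (hζ.toInteger - 1) F := by
    rw [aeval_comp]; simp
  rw [← h1] at h
  have h2 := X_sub_one_pow_dvd_of_dvd hζ _ n h
  obtain ⟨Q, hQ⟩ := h2
  refine ⟨Q.comp (X + 1), ?_⟩
  have h3 := congrArg (fun P => P.comp (X + 1 : (ZMod p)[X])) hQ
  simp only [Polynomial.map_comp, Polynomial.map_sub, Polynomial.map_X, Polynomial.map_one,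
    sub_comp, C_comp, mul_comp, pow_comp, X_comp, one_comp, comp_assoc, add_sub_cancel_right,
    comp_X] at h3
  exact h3

omit hp in
/-- If `T^(m+1) ∣ F - n` then `T^m ∣ F'`. -/
lemma X_pow_dvd_derivative {R : Type*} [CommRing R] {F : R[X]} {c : R} {m : ℕ}
    (h : (X : R[X]) ^ (m + 1) ∣ F - C c) : (X : R[X]) ^ m ∣ derivative F := by
  obtain ⟨Q, hQ⟩ := h
  have hF : F = C c + X ^ (m + 1) * Q := by rw [← hQ]; ring
  rw [hF]
  simp only [derivative_add, derivative_C, zero_add, derivative_mul, derivative_X_pow,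
    Nat.add_sub_cancel]
  refine dvd_add (Dvd.dvd.mul_right (Dvd.dvd.mul_left (dvd_refl _) _) _) ?_
  exact Dvd.dvd.mul_right (pow_dvd_pow _ (Nat.le_succ m)) _

omit hp in
/-- Logarithmic derivative of a product of powers. -/
lemma prod_mul_derivative_prod_pow {R : Type*} [CommRing R] {n : ℕ} (f : Fin n → R[X])
    (d : Fin n → ℕ) :
    (∏ i, f i) * derivative (∏ i, f i ^ d i) =
      (∏ i, f i ^ d i) * ∑ i, C (d i : R) * (derivative (f i) * ∏ j ∈ univ.erase i, f j) := by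
  classical
  rw [derivative_prod_finset, Finset.mul_sum, Finset.mul_sum]
  refine Finset.sum_congr rfl fun i _ => ?_
  have h1 : ∏ j, f j = f i * ∏ j ∈ univ.erase i, f j :=
    (Finset.mul_prod_erase univ f (mem_univ i)).symm
  have h2 : ∏ j, f j ^ d j = f i ^ d i * ∏ j ∈ univ.erase i, f j ^ d j :=
    (Finset.mul_prod_erase univ (fun j => f j ^ d j) (mem_univ i)).symm
  have h3 : f i * (C (d i : R) * f i ^ (d i - 1)) = C (d i : R) * f i ^ d i := by
    rcases Nat.eq_zero_or_pos (d i) with h0 | h0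
    · simp [h0]
    · have : f i ^ d i = f i * f i ^ (d i - 1) := by
        rw [← pow_succ', Nat.sub_add_cancel h0]
      rw [this]; ring
  rw [derivative_pow, h2]
  set A := ∏ j ∈ univ.erase i, f j
  set B := ∏ j ∈ univ.erase i, f j ^ d j
  rw [h1]
  linear_combination (A * B * derivative (f i)) * h3

end Fermat.Agent.Kummer
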