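import Fermat.Agent.Kummer.KLField
import Fermat.Agent.Kummer.KLData5
import Fermat.Agent.Kummer.KLData7
import Fermat.Agent.Kummer.KLData11
import Fermat.Agent.Kummer.KLData13

/-!
# Kummer's lemma for `p = 5, 7, 11, 13` (piece C of the Kummer squad)

A unit of `ℤ[ζ_p]` that is congruent to a rational integer modulo `p` is a `p`-th power.
-/

set_option autoImplicit false

namespace Fermat.Agent.Kummer

open NumberField

theorem kummer_lemma_five (K : Type*) [Field K] [NumberField K] [IsCyclotomicExtension {5} ℚ K]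
    (u : (𝓞 K)ˣ) (n : ℤ) (h : (5 : 𝓞 K) ∣ (u : 𝓞 K) - n) : ∃ v : (𝓞 K)ˣ, u = v ^ 5 := by
  haveI : Fact (Nat.Prime 5) := ⟨by norm_num⟩
  exact KL_kummer_lemma_of_data KL_data_five (by norm_num) K u n (by simpa using h)

theorem kummer_lemma_seven (K : Type*) [Field K] [NumberField K] [IsCyclotomicExtension {7} ℚ K]
    (u : (𝓞 K)ˣ) (n : ℤ) (h : (7 : 𝓞 K) ∣ (u : 𝓞 K) - n) : ∃ v : (𝓞 K)ˣ, u = v ^ 7 := by
  haveI : Fact (Nat.Prime 7) := ⟨by norm_num⟩
  exact KL_kummer_lemma_of_data KL_data_seven (by norm_num) K u n (by simpa using h)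

theorem kummer_lemma_eleven (K : Type*) [Field K] [NumberField K]
    [IsCyclotomicExtension {11} ℚ K]
    (u : (𝓞 K)ˣ) (n : ℤ) (h : (11 : 𝓞 K) ∣ (u : 𝓞 K) - n) : ∃ v : (𝓞 K)ˣ, u = v ^ 11 := by
  haveI : Fact (Nat.Prime 11) := ⟨by norm_num⟩
  exact KL_kummer_lemma_of_data KL_data_eleven (by norm_num) K u n (by simpa using h)

theorem kummer_lemma_thirteen (K : Type*) [Field K] [NumberField K]
    [IsCyclotomicExtension {13} ℚ K]
    (u : (𝓞 K)ˣ) (n : ℤ) (h : (13 : 𝓞 K) ∣ (u : 𝓞 K) - n) : ∃ v : (𝓞 K)ˣ, u = v ^ 13 := by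
  haveI : Fact (Nat.Prime 13) := ⟨by norm_num⟩
  exact KL_kummer_lemma_of_data KL_data_thirteen (by norm_num) K u n (by simpa using h)

end Fermat.Agent.Kummer
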