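import Fermat.Agent.Kummer.CaseII

/-!
# Assembly: Fermat's Last Theorem for a prime exponent `p` from case I, PID and Kummer's lemma
-/

set_option linter.unusedSectionVars false

namespace Fermat.Agent.Kummer

open NumberField

/-- From case I and case II to the full statement (for pairwise coprime solutions). -/
theorem fermat_of_caseI_caseII {p : ℕ} (hp : p.Prime) (hodd : p ≠ 2)
    (h1 : ∀ a b c : ℤ, IsCoprime a b → a ^ p + b ^ p = c ^ p → (p : ℤ) ∣ a * b * c)
    (h2 : ∀ a b c : ℤ, c ≠ 0 → ¬ (p : ℤ) ∣ b → (p : ℤ) ∣ c → IsCoprime a b →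
      a ^ p + b ^ p ≠ c ^ p)
    (a b c : ℤ) (ha : a ≠ 0) (hb : b ≠ 0) (hc : c ≠ 0) (hab : IsCoprime a b) :
    a ^ p + b ^ p ≠ c ^ p := by
  intro H
  have hpodd : Odd p := hp.odd_of_ne_two hodd
  have hpZ : Prime (p : ℤ) := Nat.prime_iff_prime_int.1 hp
  have hbc : IsCoprime b c := by
    refine isCoprime_of_prime_dvd (fun h => hb h.1) fun q hq hqb hqc => ?_
    have hqa : q ∣ a := by
      apply hq.dvd_of_dvd_pow (n := p)
      have : a ^ p = c ^ p - b ^ p := by rw [← H]; ring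
      rw [this]
      exact dvd_sub (dvd_pow hqc hp.ne_zero) (dvd_pow hqb hp.ne_zero)
    exact hq.not_isUnit (hab.isUnit_of_dvd' hqa hqb)
  have hac : IsCoprime a c := by
    refine isCoprime_of_prime_dvd (fun h => ha h.1) fun q hq hqa hqc => ?_
    have hqb : q ∣ b := by
      apply hq.dvd_of_dvd_pow (n := p)
      have : b ^ p = c ^ p - a ^ p := by rw [← H]; ring
      rw [this]
      exact dvd_sub (dvd_pow hqc hp.ne_zero) (dvd_pow hqa hp.ne_zero)
    exact hq.not_isUnit (hab.isUnit_of_dvd' hqa hqb)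
  have hpabc := h1 a b c hab H
  rcases hpZ.dvd_or_dvd hpabc with hpab | hpc
  · rcases hpZ.dvd_or_dvd hpab with hpa | hpb
    · -- p ∣ a
      refine h2 c (-b) a ha ?_ hpa hbc.symm.neg_right ?_
      · rw [dvd_neg]
        exact fun hpb => hpZ.not_isUnit (hab.isUnit_of_dvd' hpa hpb)
      · rw [hpodd.neg_pow]; linarith
    · -- p ∣ b
      refine h2 c (-a) b hb ?_ hpb hac.symm.neg_right ?_
      · rw [dvd_neg]
        exact fun hpa => hpZ.not_isUnit (hab.isUnit_of_dvd' hpa hpb)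
      · rw [hpodd.neg_pow]; linarith
  · -- p ∣ c
    exact h2 a b c hc (fun hpb => hpZ.not_isUnit (hbc.isUnit_of_dvd' hpb hpc)) hpc hab H

/-- Fermat's Last Theorem for exponent `p` (coprime form over `ℤ`), given case I, that `ℤ[ζ_p]` is a
PID and Kummer's lemma. -/
theorem fermat_of_pid_kummer {p : ℕ} [hp : Fact p.Prime] (hodd : p ≠ 2)
    (K : Type*) [Field K] [NumberField K] [IsCyclotomicExtension {p} ℚ K]
    (hpid : IsPrincipalIdealRing (𝓞 K))
    (kummer : ∀ (u : (𝓞 K)ˣ) (n : ℤ), (p : 𝓞 K) ∣ (u : 𝓞 K) - n → ∃ v : (𝓞 K)ˣ, u = v ^ p)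
    (h1 : ∀ a b c : ℤ, IsCoprime a b → a ^ p + b ^ p = c ^ p → (p : ℤ) ∣ a * b * c)
    (a b c : ℤ) (ha : a ≠ 0) (hb : b ≠ 0) (hc : c ≠ 0) (hab : IsCoprime a b) :
    a ^ p + b ^ p ≠ c ^ p :=
  fermat_of_caseI_caseII hp.out hodd h1
    (fun a b c hc hb hpc hab => caseII K hodd kummer a b c hc hb hpc hab) a b c ha hb hc hab

end Fermat.Agent.Kummer
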