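import Mathlib

/-!
# Generic lemmas for proving that `ℤ[ζ_p]` is a PID  (piece B of the Kummer plan)
-/

set_option autoImplicit false

namespace Fermat.Agent.Kummer

open NumberField Polynomial Ideal IsCyclotomicExtension.Rat RingOfIntegers NumberField.Ideal
open IsCyclotomicExtension

universe u

variable (K : Type u) [Field K] [NumberField K]

/-- Kummer–Dedekind for `ℚ(ζ_p)`: if `Q mod ℓ` is a monic irreducible factor of `Φ_p mod ℓ`,
then `(ℓ, Q(ζ))` is a prime ideal above `ℓ`. -/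
theorem Kummer_primesOver_of_factor (p ℓ : ℕ) [NeZero p] [Fact ℓ.Prime]
    [IsCyclotomicExtension {p} ℚ K] (Q : ℤ[X])
    (hirr : Irreducible (Q.map (Int.castRingHom (ZMod ℓ))))
    (hmonic : (Q.map (Int.castRingHom (ZMod ℓ))).Monic)
    (hdvd : Q.map (Int.castRingHom (ZMod ℓ)) ∣ cyclotomic p (ZMod ℓ)) :
    span {(ℓ : 𝓞 K), aeval (zeta_spec p ℚ K).toInteger Q} ∈
      primesOver (span {(ℓ : ℤ)}) (𝓞 K) := by
  set θ := (zeta_spec p ℚ K).toInteger with hθ
  have h₁ : ¬ ℓ ∣ exponent θ := by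
    rw [exponent_eq_one_iff.mpr <| adjoin_singleton_eq_top (zeta_spec p ℚ K)]
    exact (Fact.out : ℓ.Prime).not_dvd_one
  have hmin : (minpoly ℤ θ).map (Int.castRingHom (ZMod ℓ)) = cyclotomic p (ZMod ℓ) := by
    rw [← map_cyclotomic_int, cyclotomic_eq_minpoly (zeta_spec p ℚ K) (NeZero.pos _),
      ← (zeta_spec p ℚ K).coe_toInteger, ← RingOfIntegers.minpoly_coe θ]
    rfl
  have hQ : Q.map (Int.castRingHom (ZMod ℓ)) ∈ monicFactorsMod θ ℓ := by
    rw [Multiset.mem_toFinset, Polynomial.mem_normalizedFactors_iff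
      (map_monic_ne_zero (minpoly.monic θ.isIntegral))]
    exact ⟨hirr, hmonic, hmin ▸ hdvd⟩
  rw [← primesOverSpanEquivMonicFactorsMod_symm_apply_eq_span h₁ hQ]
  exact ((primesOverSpanEquivMonicFactorsMod h₁).symm ⟨_, hQ⟩).prop

/-- Linear case of `Kummer_primesOver_of_factor`. -/
theorem Kummer_primesOver_of_root (p ℓ : ℕ) [NeZero p] [Fact ℓ.Prime]
    [IsCyclotomicExtension {p} ℚ K] (a : ℤ)
    (ha : (cyclotomic p (ZMod ℓ)).IsRoot (a : ZMod ℓ)) :
    span {(ℓ : 𝓞 K), (zeta_spec p ℚ K).toInteger - (a : 𝓞 K)} ∈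
      primesOver (span {(ℓ : ℤ)}) (𝓞 K) := by
  have hmap : (X - C a : ℤ[X]).map (Int.castRingHom (ZMod ℓ)) = X - C (a : ZMod ℓ) := by
    simp
  have := Kummer_primesOver_of_factor K p ℓ (X - C a)
    (by rw [hmap]; exact irreducible_X_sub_C _)
    (by rw [hmap]; exact monic_X_sub_C _)
    (by rw [hmap]; exact dvd_iff_isRoot.mpr ha)
  simpa using this

/-- If `B < p ^ k` fails for the order `k` of `p` mod `m`, then `p ^ k = 1` mod `m` for some
small `k`: a decidable criterion for `B < p ^ orderOf p`. -/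
theorem Kummer_lt_pow_orderOf {m : ℕ} (p B : ℕ) (hp : 2 ≤ p)
    (h1 : ∃ n, 0 < n ∧ (p : ZMod m) ^ n = 1)
    (h : ∀ k ∈ Finset.Icc 1 B, p ^ k ≤ B → (p : ZMod m) ^ k ≠ 1) :
    B < p ^ orderOf (p : ZMod m) := by
  by_contra hcon
  rw [not_lt] at hcon
  have hpos : 0 < orderOf (p : ZMod m) := by
    obtain ⟨n, hn, hn1⟩ := h1
    exact orderOf_pos_iff.mpr (isOfFinOrder_iff_pow_eq_one.mpr ⟨n, hn, hn1⟩)
  have hlt : orderOf (p : ZMod m) < p ^ orderOf (p : ZMod m) := Nat.lt_pow_self hp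
  exact h _ (Finset.mem_Icc.mpr ⟨hpos, hlt.le.trans hcon⟩) hcon (pow_orderOf_eq_one _)

end Fermat.Agent.Kummer
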