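import Mathlib
import Fermat.Agent.Kummer.PIDLib

/-!
# `ℤ[ζ₁₁]` is a PID  (piece B of the Kummer plan, p = 11)
-/

set_option autoImplicit false

namespace Fermat.Agent.Kummer

open NumberField Polynomial InfinitePlace Nat Real IsCyclotomicExtension.Rat Ideal

universe u

variable (K : Type u) [Field K] [NumberField K]

/-- The Minkowski bound of `ℚ(ζ₁₁)` is `< 59`. -/
theorem Kummer_minkowski_eleven [IsCyclotomicExtension {11} ℚ K] :
    ⌊(4 / π) ^ nrComplexPlaces K *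
      ((Module.finrank ℚ K)! / (Module.finrank ℚ K) ^ (Module.finrank ℚ K) *
        √|(discr K : ℝ)|)⌋₊ ≤ 58 := by
  have : Fact (Nat.Prime 11) := ⟨by norm_num⟩
  rw [discr_prime 11 K, IsCyclotomicExtension.finrank (n := 11) K
    (Polynomial.cyclotomic.irreducible_rat (by norm_num)), nrComplexPlaces_eq_totient_div_two 11,
    totient_prime (by norm_num : Nat.Prime 11)]
  have h10 : (10 : ℕ)! = 3628800 := by decide
  simp only [show (11 - 1 : ℕ) = 10 from rfl, show (10 / 2 : ℕ) = 5 from rfl,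
    show (11 - 2 : ℕ) = 9 from rfl, h10]
  have hsq : √|(((-1 : ℤ) ^ 5 * ((11 : ℕ) : ℤ) ^ 9 : ℤ) : ℝ)| ≤ 48558.71 := by
    rw [Real.sqrt_le_left (by norm_num)]
    norm_num [abs_of_nonneg]
  have hpi : (4 / π : ℝ) ≤ 4 / 3.1415 := by
    have := pi_gt_d4
    gcongr
  have hpos : (0 : ℝ) ≤ 4 / π := by positivity
  have key : (4 / π) ^ 5 * (((3628800 : ℕ) : ℝ) / ((10 : ℕ) : ℝ) ^ 10 *
      √|(((-1 : ℤ) ^ 5 * ((11 : ℕ) : ℤ) ^ 9 : ℤ) : ℝ)|) < 59 := by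
    calc (4 / π) ^ 5 * (((3628800 : ℕ) : ℝ) / ((10 : ℕ) : ℝ) ^ 10 *
          √|(((-1 : ℤ) ^ 5 * ((11 : ℕ) : ℤ) ^ 9 : ℤ) : ℝ)|)
        ≤ (4 / 3.1415) ^ 5 * (((3628800 : ℕ) : ℝ) / ((10 : ℕ) : ℝ) ^ 10 * 48558.71) := by
          gcongr
      _ < 59 := by norm_num
  have h59 : ⌊(4 / π) ^ 5 * (((3628800 : ℕ) : ℝ) / ((10 : ℕ) : ℝ) ^ 10 *
      √|(((-1 : ℤ) ^ 5 * ((11 : ℕ) : ℤ) ^ 9 : ℤ) : ℝ)|)⌋₊ < 59 :=
    (Nat.floor_lt (by positivity)).mpr (by exact_mod_cast key)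
  exact Nat.lt_succ_iff.mp h59

/-- `1 + ζ + ζ³` generates the prime `(23, ζ - 4)` of `ℤ[ζ₁₁]`. -/
theorem Kummer_eleven_span_twentythree [IsCyclotomicExtension {11} ℚ K] :
    span {((23 : ℕ) : 𝓞 K), (IsCyclotomicExtension.zeta_spec 11 ℚ K).toInteger - ((4 : ℤ) : 𝓞 K)} =
      span {1 + (IsCyclotomicExtension.zeta_spec 11 ℚ K).toInteger +
        (IsCyclotomicExtension.zeta_spec 11 ℚ K).toInteger ^ 3} := by
  set θ := (IsCyclotomicExtension.zeta_spec 11 ℚ K).toInteger with hθ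
  have hprim : IsPrimitiveRoot θ 11 := (IsCyclotomicExtension.zeta_spec 11 ℚ K).toInteger_isPrimitiveRoot
  have hΦ : 1 + θ + θ ^ 2 + θ ^ 3 + θ ^ 4 + θ ^ 5 + θ ^ 6 + θ ^ 7 + θ ^ 8 + θ ^ 9 + θ ^ 10 = 0 := by
    have := hprim.geom_sum_eq_zero (by norm_num)
    simpa [Finset.sum_range_succ] using this
  apply le_antisymm
  · rw [span_le]
    rintro x (rfl | rfl)
    · rw [SetLike.mem_coe, mem_span_singleton]
      refine ⟨-(2 + 14 * θ + 17 * θ ^ 2 + 12 * θ ^ 3 + 5 * θ ^ 4 + 9 * θ ^ 5 + 10 * θ ^ 6 +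
        16 * θ ^ 7 + 6 * θ ^ 8 + 15 * θ ^ 9), ?_⟩
      push_cast
      linear_combination (-(-25 + 9 * θ - 15 * θ ^ 2)) * hΦ
    · rw [SetLike.mem_coe, mem_span_singleton]
      refine ⟨1 + 3 * θ + 3 * θ ^ 2 + 2 * θ ^ 3 + θ ^ 4 + 2 * θ ^ 5 + 2 * θ ^ 6 +
        3 * θ ^ 7 + θ ^ 8 + 3 * θ ^ 9, ?_⟩
      push_cast
      linear_combination (-(5 - 2 * θ + 3 * θ ^ 2)) * hΦ
  · rw [span_le, Set.singleton_subset_iff, SetLike.mem_coe, mem_span_pair]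
    refine ⟨3, θ ^ 2 + 4 * θ + 17, ?_⟩
    push_cast
    ring

theorem Kummer_geom_sum_four_zmod23 :
    (∑ i ∈ Finset.range 11, (((4 : ℤ) : ZMod 23)) ^ i) = 0 := by decide

/-- `ℤ[ζ₁₁]` is a principal ideal domain. -/
theorem pid_eleven [IsCyclotomicExtension {11} ℚ K] : IsPrincipalIdealRing (𝓞 K) := by
  have : Fact (Nat.Prime 11) := ⟨by norm_num⟩
  have : IsGalois ℚ K := IsCyclotomicExtension.isGalois {11} ℚ K
  apply RingOfIntegers.isPrincipalIdealRing_of_isPrincipal_of_lt_or_isPrincipal_of_mem_primesOver_of_mem_Icc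
  intro p hp hpp
  have hM := Kummer_minkowski_eleven K
  have hp58 : p ≤ 58 := (Finset.mem_Icc.mp hp).2.trans hM
  have : Fact p.Prime := ⟨hpp⟩
  by_cases h11 : p = 11
  · subst h11
    obtain ⟨⟨P, hP1, hP2⟩⟩ := (span {((11 : ℕ) : ℤ)}).nonempty_primesOver (S := 𝓞 K)
    refine ⟨P, ⟨hP1, hP2⟩, Or.inr ?_⟩
    rw [eq_span_zeta_sub_one_of_liesOver' 11 K (IsCyclotomicExtension.zeta_spec 11 ℚ K) P]
    exact ⟨_, rfl⟩
  by_cases h23 : p = 23
  · subst h23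
    refine ⟨_, Kummer_primesOver_of_root K 11 23 4 ?_, Or.inr ?_⟩
    · rw [cyclotomic_prime]
      simp only [IsRoot.def, eval_geom_sum]
      exact Kummer_geom_sum_four_zmod23
    · rw [Kummer_eleven_span_twentythree]
      exact ⟨_, rfl⟩
  · obtain ⟨⟨P, hP1, hP2⟩⟩ := (span {(p : ℤ)}).nonempty_primesOver (S := 𝓞 K)
    refine ⟨P, ⟨hP1, hP2⟩, Or.inl ?_⟩
    have hnd : ¬ p ∣ 11 := by
      intro h
      exact h11 ((Nat.prime_dvd_prime_iff_eq hpp (by norm_num)).mp h)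
    rw [inertiaDeg_eq_of_not_dvd p K P hnd]
    refine lt_of_le_of_lt hM ?_
    have h2 : 2 ≤ p := hpp.two_le
    clear hM hp hP1 hP2
    interval_cases p <;> first
      | (exfalso; revert hpp; norm_num; done)
      | (exfalso; exact h11 rfl)
      | (exfalso; exact h23 rfl)
      | (refine Kummer_lt_pow_orderOf _ 58 (by norm_num) ⟨10, by norm_num, by decide⟩ ?_
         decide)

end Fermat.Agent.Kummer
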