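import Mathlib
import Fermat.Agent.Kummer.PIDLib

/-!
# `ℤ[ζ₁₃]` is a PID  (piece B of the Kummer plan, p = 13; helper13)

Minkowski bound `≤ 306`. The primes `ℓ ≤ 306` whose inertia degree `f` has `ℓ ^ f ≤ 306` are
`ℓ = 3` (`f = 3`) and `ℓ = 53, 79, 131, 157` (`f = 1`), and `13` itself; for each of them we exhibit
a principal prime above `ℓ`, with explicit certificates.
-/

set_option autoImplicit false

namespace Fermat.Agent.Kummer

open NumberField Polynomial InfinitePlace Nat Real IsCyclotomicExtension.Rat Ideal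

universe u

variable (K : Type u) [Field K] [NumberField K]

/-- The Minkowski bound of `ℚ(ζ₁₃)` is `< 307`. -/
theorem Kummer_minkowski_thirteen [IsCyclotomicExtension {13} ℚ K] :
    ⌊(4 / π) ^ nrComplexPlaces K *
      ((Module.finrank ℚ K)! / (Module.finrank ℚ K) ^ (Module.finrank ℚ K) *
        √|(discr K : ℝ)|)⌋₊ ≤ 306 := by
  have : Fact (Nat.Prime 13) := ⟨by norm_num⟩
  rw [discr_prime 13 K, IsCyclotomicExtension.finrank (n := 13) K
    (Polynomial.cyclotomic.irreducible_rat (by norm_num)), nrComplexPlaces_eq_totient_div_two 13,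
    totient_prime (by norm_num : Nat.Prime 13)]
  have h12 : (12 : ℕ)! = 479001600 := by decide
  simp only [show (13 - 1 : ℕ) = 12 from rfl, show (12 / 2 : ℕ) = 6 from rfl,
    show (13 - 2 : ℕ) = 11 from rfl, h12]
  have hsq : √|(((-1 : ℤ) ^ 6 * ((13 : ℕ) : ℤ) ^ 11 : ℤ) : ℝ)| ≤ 1338716.1 := by
    rw [Real.sqrt_le_left (by norm_num)]
    norm_num [abs_of_nonneg]
  have hpi : (4 / π : ℝ) ≤ 4 / 3.1415 := by
    have := pi_gt_d4
    gcongr
  have hpos : (0 : ℝ) ≤ 4 / π := by positivity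
  have key : (4 / π) ^ 6 * (((479001600 : ℕ) : ℝ) / ((12 : ℕ) : ℝ) ^ 12 *
      √|(((-1 : ℤ) ^ 6 * ((13 : ℕ) : ℤ) ^ 11 : ℤ) : ℝ)|) < 307 := by
    calc (4 / π) ^ 6 * (((479001600 : ℕ) : ℝ) / ((12 : ℕ) : ℝ) ^ 12 *
          √|(((-1 : ℤ) ^ 6 * ((13 : ℕ) : ℤ) ^ 11 : ℤ) : ℝ)|)
        ≤ (4 / 3.1415) ^ 6 * (((479001600 : ℕ) : ℝ) / ((12 : ℕ) : ℝ) ^ 12 * 1338716.1) := by
          gcongr
      _ < 307 := by norm_num
  have h307 : ⌊(4 / π) ^ 6 * (((479001600 : ℕ) : ℝ) / ((12 : ℕ) : ℝ) ^ 12 *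
      √|(((-1 : ℤ) ^ 6 * ((13 : ℕ) : ℤ) ^ 11 : ℤ) : ℝ)|)⌋₊ < 307 :=
    (Nat.floor_lt (by positivity)).mpr (by exact_mod_cast key)
  exact Nat.lt_succ_iff.mp h307

/-- `Φ₁₃(ζ) = 0`. -/
theorem Kummer_thirteen_geom_sum [IsCyclotomicExtension {13} ℚ K] :
    1 + (IsCyclotomicExtension.zeta_spec 13 ℚ K).toInteger +
      (IsCyclotomicExtension.zeta_spec 13 ℚ K).toInteger ^ 2 +
      (IsCyclotomicExtension.zeta_spec 13 ℚ K).toInteger ^ 3 +
      (IsCyclotomicExtension.zeta_spec 13 ℚ K).toInteger ^ 4 +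
      (IsCyclotomicExtension.zeta_spec 13 ℚ K).toInteger ^ 5 +
      (IsCyclotomicExtension.zeta_spec 13 ℚ K).toInteger ^ 6 +
      (IsCyclotomicExtension.zeta_spec 13 ℚ K).toInteger ^ 7 +
      (IsCyclotomicExtension.zeta_spec 13 ℚ K).toInteger ^ 8 +
      (IsCyclotomicExtension.zeta_spec 13 ℚ K).toInteger ^ 9 +
      (IsCyclotomicExtension.zeta_spec 13 ℚ K).toInteger ^ 10 +
      (IsCyclotomicExtension.zeta_spec 13 ℚ K).toInteger ^ 11 +
      (IsCyclotomicExtension.zeta_spec 13 ℚ K).toInteger ^ 12 = 0 := by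
  have hprim : IsPrimitiveRoot (IsCyclotomicExtension.zeta_spec 13 ℚ K).toInteger 13 :=
    (IsCyclotomicExtension.zeta_spec 13 ℚ K).toInteger_isPrimitiveRoot
  have := hprim.geom_sum_eq_zero (by norm_num)
  simpa [Finset.sum_range_succ] using this

/-- `1 + ζ - ζ³` generates the prime `(3, ζ³ - ζ - 1)` of `ℤ[ζ₁₃]`. -/
theorem Kummer_thirteen_span_three [IsCyclotomicExtension {13} ℚ K] :
    span {((3 : ℕ) : 𝓞 K), aeval (IsCyclotomicExtension.zeta_spec 13 ℚ K).toInteger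
        (X ^ 3 - X - 1 : ℤ[X])} =
      span {1 + (IsCyclotomicExtension.zeta_spec 13 ℚ K).toInteger -
        (IsCyclotomicExtension.zeta_spec 13 ℚ K).toInteger ^ 3} := by
  set θ := (IsCyclotomicExtension.zeta_spec 13 ℚ K).toInteger with hθ
  have hΦ := Kummer_thirteen_geom_sum K
  rw [← hθ] at hΦ
  have hQ : aeval θ (X ^ 3 - X - 1 : ℤ[X]) = θ ^ 3 - θ - 1 := by simp
  rw [hQ]
  apply le_antisymm
  · rw [span_le]
    rintro x (rfl | rfl)
    · rw [SetLike.mem_coe, mem_span_singleton]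
      refine ⟨-1 - θ ^ 2 - θ ^ 3 - 2 * θ ^ 5 - θ ^ 7 - 2 * θ ^ 8 + θ ^ 9 - 3 * θ ^ 10, ?_⟩
      push_cast
      linear_combination (-(-4 + 3 * θ)) * hΦ
    · rw [SetLike.mem_coe, mem_span_singleton]
      exact ⟨-1, by ring⟩
  · rw [span_le, Set.singleton_subset_iff, SetLike.mem_coe, mem_span_pair]
    exact ⟨0, -1, by ring⟩

theorem Kummer_thirteen_geom_sum_zmod_fiftythree :
    (∑ i ∈ Finset.range 13, (((-17 : ℤ) : ZMod 53)) ^ i) = 0 := by decide

/-- `1 + θ + θ ^ 3` generates the prime `(53, ζ - (-17))` of `ℤ[ζ₁₃]`. -/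
theorem Kummer_thirteen_span_fiftythree [IsCyclotomicExtension {13} ℚ K] :
    span {((53 : ℕ) : 𝓞 K), (IsCyclotomicExtension.zeta_spec 13 ℚ K).toInteger - (((-17) : ℤ) : 𝓞 K)} =
      span {1 + (IsCyclotomicExtension.zeta_spec 13 ℚ K).toInteger + (IsCyclotomicExtension.zeta_spec 13 ℚ K).toInteger ^ 3} := by
  set θ := (IsCyclotomicExtension.zeta_spec 13 ℚ K).toInteger with hθ
  have hΦ := Kummer_thirteen_geom_sum K
  rw [← hθ] at hΦ
  apply le_antisymm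
  · rw [span_le]
    rintro x (rfl | rfl)
    · rw [SetLike.mem_coe, mem_span_singleton]
      refine ⟨1 - 24 * θ - 35 * θ ^ 2 - 25 * θ ^ 3 - 10 * θ ^ 4 - 14 * θ ^ 5 - 20 * θ ^ 6 - 29 * θ ^ 7 - 16 * θ ^ 8 - 23 * θ ^ 9 - 7 * θ ^ 10 - 36 * θ ^ 11, ?_⟩
      push_cast
      linear_combination (-(-52 + 29 * θ - 36 * θ ^ 2)) * hΦ
    · rw [SetLike.mem_coe, mem_span_singleton]
      refine ⟨1 - 7 * θ - 11 * θ ^ 2 - 8 * θ ^ 3 - 3 * θ ^ 4 - 4 * θ ^ 5 - 6 * θ ^ 6 - 9 * θ ^ 7 - 5 * θ ^ 8 - 7 * θ ^ 9 - 2 * θ ^ 10 - 11 * θ ^ 11, ?_⟩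
      push_cast
      linear_combination (-(-16 + 9 * θ - 11 * θ ^ 2)) * hΦ
  · rw [span_le, Set.singleton_subset_iff, SetLike.mem_coe, mem_span_pair]
    refine ⟨-93, 290 - 17 * θ + θ ^ 2, ?_⟩
    push_cast
    ring

theorem Kummer_thirteen_geom_sum_zmod_seventynine :
    (∑ i ∈ Finset.range 13, (((-15 : ℤ) : ZMod 79)) ^ i) = 0 := by decide

/-- `1 + θ - θ ^ 4` generates the prime `(79, ζ - (-15))` of `ℤ[ζ₁₃]`. -/
theorem Kummer_thirteen_span_seventynine [IsCyclotomicExtension {13} ℚ K] :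
    span {((79 : ℕ) : 𝓞 K), (IsCyclotomicExtension.zeta_spec 13 ℚ K).toInteger - (((-15) : ℤ) : 𝓞 K)} =
      span {1 + (IsCyclotomicExtension.zeta_spec 13 ℚ K).toInteger - (IsCyclotomicExtension.zeta_spec 13 ℚ K).toInteger ^ 4} := by
  set θ := (IsCyclotomicExtension.zeta_spec 13 ℚ K).toInteger with hθ
  have hΦ := Kummer_thirteen_geom_sum K
  rw [← hθ] at hΦ
  apply le_antisymm
  · rw [span_le]
    rintro x (rfl | rfl)
    · rw [SetLike.mem_coe, mem_span_singleton]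
      refine ⟨24 - 25 * θ - 27 * θ ^ 2 + 10 * θ ^ 3 - 3 * θ ^ 4 - 39 * θ ^ 5 - 5 * θ ^ 6 - 2 * θ ^ 7 - 18 * θ ^ 8 - 38 * θ ^ 9 + 16 * θ ^ 10 - 35 * θ ^ 11, ?_⟩
      push_cast
      linear_combination (-(-55 + 54 * θ - 51 * θ ^ 2 + 35 * θ ^ 3)) * hΦ
    · rw [SetLike.mem_coe, mem_span_singleton]
      refine ⟨5 - 4 * θ - 5 * θ ^ 2 + 2 * θ ^ 3 - 7 * θ ^ 5 - θ ^ 6 - 3 * θ ^ 8 - 7 * θ ^ 9 + 3 * θ ^ 10 - 6 * θ ^ 11, ?_⟩
      push_cast
      linear_combination (-(-10 + 10 * θ - 9 * θ ^ 2 + 6 * θ ^ 3)) * hΦ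
  · rw [span_le, Set.singleton_subset_iff, SetLike.mem_coe, mem_span_pair]
    refine ⟨-641, 3376 - 225 * θ + 15 * θ ^ 2 - θ ^ 3, ?_⟩
    push_cast
    ring

theorem Kummer_thirteen_geom_sum_zmod_onethirtyone :
    (∑ i ∈ Finset.range 13, (((-51 : ℤ) : ZMod 131)) ^ i) = 0 := by decide

/-- `1 - θ - θ ^ 3` generates the prime `(131, ζ - (-51))` of `ℤ[ζ₁₃]`. -/
theorem Kummer_thirteen_span_onethirtyone [IsCyclotomicExtension {13} ℚ K] :
    span {((131 : ℕ) : 𝓞 K), (IsCyclotomicExtension.zeta_spec 13 ℚ K).toInteger - (((-51) : ℤ) : 𝓞 K)} =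
      span {1 - (IsCyclotomicExtension.zeta_spec 13 ℚ K).toInteger - (IsCyclotomicExtension.zeta_spec 13 ℚ K).toInteger ^ 3} := by
  set θ := (IsCyclotomicExtension.zeta_spec 13 ℚ K).toInteger with hθ
  have hΦ := Kummer_thirteen_geom_sum K
  rw [← hθ] at hΦ
  apply le_antisymm
  · rw [span_le]
    rintro x (rfl | rfl)
    · rw [SetLike.mem_coe, mem_span_singleton]
      refine ⟨111 + 78 * θ + 17 * θ ^ 2 + 67 * θ ^ 3 + 84 * θ ^ 4 + 40 * θ ^ 5 + 46 * θ ^ 6 + 69 * θ ^ 7 + 48 * θ ^ 8 + 33 * θ ^ 9 + 41 * θ ^ 10 + 28 * θ ^ 11, ?_⟩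
      push_cast
      linear_combination (-(-20 - 13 * θ - 28 * θ ^ 2)) * hΦ
    · rw [SetLike.mem_coe, mem_span_singleton]
      refine ⟨43 + 31 * θ + 7 * θ ^ 2 + 26 * θ ^ 3 + 33 * θ ^ 4 + 16 * θ ^ 5 + 18 * θ ^ 6 + 27 * θ ^ 7 + 19 * θ ^ 8 + 13 * θ ^ 9 + 16 * θ ^ 10 + 11 * θ ^ 11, ?_⟩
      push_cast
      linear_combination (-(-8 - 5 * θ - 11 * θ ^ 2)) * hΦ
  · rw [span_le, Set.singleton_subset_iff, SetLike.mem_coe, mem_span_pair]
    refine ⟨1013, -2602 + 51 * θ - θ ^ 2, ?_⟩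
    push_cast
    ring

theorem Kummer_thirteen_geom_sum_zmod_onefiftyseven :
    (∑ i ∈ Finset.range 13, (((75 : ℤ) : ZMod 157)) ^ i) = 0 := by decide

/-- `1 - θ + θ ^ 2 + θ ^ 4` generates the prime `(157, ζ - (75))` of `ℤ[ζ₁₃]`. -/
theorem Kummer_thirteen_span_onefiftyseven [IsCyclotomicExtension {13} ℚ K] :
    span {((157 : ℕ) : 𝓞 K), (IsCyclotomicExtension.zeta_spec 13 ℚ K).toInteger - (((75) : ℤ) : 𝓞 K)} =
      span {1 - (IsCyclotomicExtension.zeta_spec 13 ℚ K).toInteger + (IsCyclotomicExtension.zeta_spec 13 ℚ K).toInteger ^ 2 + (IsCyclotomicExtension.zeta_spec 13 ℚ K).toInteger ^ 4} := by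
  set θ := (IsCyclotomicExtension.zeta_spec 13 ℚ K).toInteger with hθ
  have hΦ := Kummer_thirteen_geom_sum K
  rw [← hθ] at hΦ
  apply le_antisymm
  · rw [span_le]
    rintro x (rfl | rfl)
    · rw [SetLike.mem_coe, mem_span_singleton]
      refine ⟨89 + 86 * θ + 42 * θ ^ 2 + 77 * θ ^ 3 + 67 * θ ^ 4 + 25 * θ ^ 5 + 37 * θ ^ 6 + 56 * θ ^ 7 + 73 * θ ^ 8 + 113 * θ ^ 9 + 124 * θ ^ 10 + 76 * θ ^ 11, ?_⟩
      push_cast
      linear_combination (-(-68 + 65 * θ + 48 * θ ^ 2 + 76 * θ ^ 3)) * hΦ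
    · rw [SetLike.mem_coe, mem_span_singleton]
      refine ⟨-43 - 41 * θ - 20 * θ ^ 2 - 37 * θ ^ 3 - 32 * θ ^ 4 - 12 * θ ^ 5 - 18 * θ ^ 6 - 27 * θ ^ 7 - 35 * θ ^ 8 - 54 * θ ^ 9 - 59 * θ ^ 10 - 36 * θ ^ 11, ?_⟩
      push_cast
      linear_combination (-(32 - 31 * θ - 23 * θ ^ 2 - 36 * θ ^ 3)) * hΦ
  · rw [span_le, Set.singleton_subset_iff, SetLike.mem_coe, mem_span_pair]
    refine ⟨201568, 421949 + 5626 * θ + 75 * θ ^ 2 + θ ^ 3, ?_⟩
    push_cast
    ring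

/-- `X³ - X - 1` is irreducible mod `3`. -/
theorem Kummer_thirteen_cubic_irreducible_zmod_three :
    Irreducible ((X ^ 3 - X - 1 : ℤ[X]).map (Int.castRingHom (ZMod 3))) := by
  have hmap : (X ^ 3 - X - 1 : ℤ[X]).map (Int.castRingHom (ZMod 3)) =
      (X ^ 3 - X - 1 : (ZMod 3)[X]) := by simp
  rw [hmap]
  have hdeg : (X ^ 3 - X - 1 : (ZMod 3)[X]).natDegree = 3 := by
    compute_degree!
  refine irreducible_of_degree_le_three_of_not_isRoot (by rw [hdeg]; decide) ?_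
  intro x
  simp only [IsRoot.def, eval_sub, eval_pow, eval_X, eval_one]
  revert x
  decide

theorem Kummer_thirteen_cubic_monic_zmod_three :
    ((X ^ 3 - X - 1 : ℤ[X]).map (Int.castRingHom (ZMod 3))).Monic := by
  have hmap : (X ^ 3 - X - 1 : ℤ[X]).map (Int.castRingHom (ZMod 3)) =
      (X ^ 3 - X - 1 : (ZMod 3)[X]) := by simp
  rw [hmap]
  monicity!

/-- `X³ - X - 1` divides `Φ₁₃` mod `3`. -/
theorem Kummer_thirteen_cubic_dvd_cyclotomic_zmod_three :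
    (X ^ 3 - X - 1 : ℤ[X]).map (Int.castRingHom (ZMod 3)) ∣ cyclotomic 13 (ZMod 3) := by
  have key : cyclotomic 13 ℤ = (X ^ 3 - X - 1 : ℤ[X]) *
      (-1 - X ^ 2 - X ^ 3 + X ^ 5 - X ^ 7 + X ^ 8 + X ^ 9) +
      C 3 * (X ^ 5 + X ^ 6 + X ^ 9 + X ^ 10) := by
    have : Fact (Nat.Prime 13) := ⟨by norm_num⟩
    rw [cyclotomic_prime]
    simp only [Finset.sum_range_succ, Finset.sum_range_zero, map_ofNat]
    ring
  refine ⟨(-1 - X ^ 2 - X ^ 3 + X ^ 5 - X ^ 7 + X ^ 8 + X ^ 9 : ℤ[X]).map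
    (Int.castRingHom (ZMod 3)), ?_⟩
  rw [← map_cyclotomic_int, key, Polynomial.map_add, Polynomial.map_mul, Polynomial.map_mul,
    Polynomial.map_C]
  have h3 : (Int.castRingHom (ZMod 3)) 3 = 0 := by decide
  rw [h3, C_0, zero_mul, add_zero]

/-- For a prime `p ≤ 306` with `p ≡ 1 mod 13`: `p ∈ {53, 79, 131, 157}`. -/
theorem Kummer_thirteen_primes_one_mod (p : ℕ) (hp : p.Prime) (h306 : p ≤ 306)
    (h1 : p % 13 = 1) : p = 53 ∨ p = 79 ∨ p = 131 ∨ p = 157 := by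
  obtain ⟨k, rfl⟩ : ∃ k, p = 13 * k + 1 := ⟨p / 13, by omega⟩
  have hk : k ≤ 23 := by omega
  interval_cases k <;> first
    | (exfalso; revert hp; norm_num; done)
    | omega

/-- A cheap criterion for `B < p ^ orderOf p`. -/
theorem Kummer_thirteen_lt_pow_orderOf {m : ℕ} (p B k : ℕ) (hp : 2 ≤ p)
    (h1 : ∃ n, 0 < n ∧ (p : ZMod m) ^ n = 1) (hB : B < p ^ (k + 1))
    (h : ∀ j ∈ Finset.Icc 1 k, (p : ZMod m) ^ j ≠ 1) :
    B < p ^ orderOf (p : ZMod m) := by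
  have hpos : 0 < orderOf (p : ZMod m) := by
    obtain ⟨n, hn, hn1⟩ := h1
    exact orderOf_pos_iff.mpr (isOfFinOrder_iff_pow_eq_one.mpr ⟨n, hn, hn1⟩)
  have hk : k < orderOf (p : ZMod m) := by
    by_contra hcon
    rw [not_lt] at hcon
    exact h _ (Finset.mem_Icc.mpr ⟨hpos, hcon⟩) (pow_orderOf_eq_one _)
  calc B < p ^ (k + 1) := hB
    _ ≤ p ^ orderOf (p : ZMod m) := Nat.pow_le_pow_right (by omega) hk

/-- `ℤ[ζ₁₃]` is a principal ideal domain. -/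
theorem pid_thirteen [IsCyclotomicExtension {13} ℚ K] : IsPrincipalIdealRing (𝓞 K) := by
  have : Fact (Nat.Prime 13) := ⟨by norm_num⟩
  have : IsGalois ℚ K := IsCyclotomicExtension.isGalois {13} ℚ K
  apply RingOfIntegers.isPrincipalIdealRing_of_isPrincipal_of_lt_or_isPrincipal_of_mem_primesOver_of_mem_Icc
  intro p hp hpp
  have hM := Kummer_minkowski_thirteen K
  have hp306 : p ≤ 306 := (Finset.mem_Icc.mp hp).2.trans hM
  have : Fact p.Prime := ⟨hpp⟩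
  by_cases h13 : p = 13
  · subst h13
    obtain ⟨⟨P, hP1, hP2⟩⟩ := (span {((13 : ℕ) : ℤ)}).nonempty_primesOver (S := 𝓞 K)
    refine ⟨P, ⟨hP1, hP2⟩, Or.inr ?_⟩
    rw [eq_span_zeta_sub_one_of_liesOver' 13 K (IsCyclotomicExtension.zeta_spec 13 ℚ K) P]
    exact ⟨_, rfl⟩
  by_cases h3 : p = 3
  · subst h3
    refine ⟨_, Kummer_primesOver_of_factor K 13 3 (X ^ 3 - X - 1)
      Kummer_thirteen_cubic_irreducible_zmod_three Kummer_thirteen_cubic_monic_zmod_three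
      Kummer_thirteen_cubic_dvd_cyclotomic_zmod_three, Or.inr ?_⟩
    rw [Kummer_thirteen_span_three]
    exact ⟨_, rfl⟩
  by_cases h53 : p = 53
  · subst h53
    refine ⟨_, Kummer_primesOver_of_root K 13 53 (-17) ?_, Or.inr ?_⟩
    · rw [cyclotomic_prime]
      simp only [IsRoot.def, eval_geom_sum]
      exact Kummer_thirteen_geom_sum_zmod_fiftythree
    · rw [Kummer_thirteen_span_fiftythree]
      exact ⟨_, rfl⟩
  by_cases h79 : p = 79
  · subst h79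
    refine ⟨_, Kummer_primesOver_of_root K 13 79 (-15) ?_, Or.inr ?_⟩
    · rw [cyclotomic_prime]
      simp only [IsRoot.def, eval_geom_sum]
      exact Kummer_thirteen_geom_sum_zmod_seventynine
    · rw [Kummer_thirteen_span_seventynine]
      exact ⟨_, rfl⟩
  by_cases h131 : p = 131
  · subst h131
    refine ⟨_, Kummer_primesOver_of_root K 13 131 (-51) ?_, Or.inr ?_⟩
    · rw [cyclotomic_prime]
      simp only [IsRoot.def, eval_geom_sum]
      exact Kummer_thirteen_geom_sum_zmod_onethirtyone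
    · rw [Kummer_thirteen_span_onethirtyone]
      exact ⟨_, rfl⟩
  by_cases h157 : p = 157
  · subst h157
    refine ⟨_, Kummer_primesOver_of_root K 13 157 (75) ?_, Or.inr ?_⟩
    · rw [cyclotomic_prime]
      simp only [IsRoot.def, eval_geom_sum]
      exact Kummer_thirteen_geom_sum_zmod_onefiftyseven
    · rw [Kummer_thirteen_span_onefiftyseven]
      exact ⟨_, rfl⟩
  · obtain ⟨⟨P, hP1, hP2⟩⟩ := (span {(p : ℤ)}).nonempty_primesOver (S := 𝓞 K)
    refine ⟨P, ⟨hP1, hP2⟩, Or.inl ?_⟩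
    have hnd : ¬ p ∣ 13 := by
      intro h
      exact h13 ((Nat.prime_dvd_prime_iff_eq hpp (by norm_num)).mp h)
    rw [inertiaDeg_eq_of_not_dvd p K P hnd]
    refine lt_of_le_of_lt hM ?_
    have h2 : 2 ≤ p := hpp.two_le
    clear hM hp hP1 hP2
    -- `p` has finite order mod 13
    have hfin : ∃ n, 0 < n ∧ ((p : ℕ) : ZMod 13) ^ n = 1 := by
      refine ⟨12, by norm_num, ?_⟩
      have hne : ((p : ℕ) : ZMod 13) ≠ 0 := by
        rw [Ne, ZMod.natCast_eq_zero_iff]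
        intro h
        exact hnd ((Nat.prime_dvd_prime_iff_eq (by norm_num) hpp).mp h ▸ dvd_rfl)
      exact ZMod.pow_card_sub_one_eq_one hne
    by_cases hbig : 18 ≤ p
    · -- `p² > 306` and `p ≢ 1 mod 13`
      have hsq : 306 < p ^ (1 + 1) :=
        calc 306 < 18 ^ (1 + 1) := by norm_num
          _ ≤ p ^ (1 + 1) := Nat.pow_le_pow_left hbig _
      refine Kummer_thirteen_lt_pow_orderOf p 306 1 h2 hfin hsq ?_
      intro j hj
      have hj1 : j = 1 := by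
        have := Finset.mem_Icc.mp hj
        omega
      subst hj1
      rw [pow_one]
      intro hone
      have hmod : p % 13 = 1 := by
        have h1' : ((p : ℕ) : ZMod 13) = ((1 : ℕ) : ZMod 13) := by simpa using hone
        have := (ZMod.natCast_eq_natCast_iff' p 1 13).mp h1'
        simpa using this
      rcases Kummer_thirteen_primes_one_mod p hpp hp306 hmod with h | h | h | h
      · exact h53 h
      · exact h79 h
      · exact h131 h
      · exact h157 h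
    · -- small primes `p ≤ 17`
      have hp17 : p ≤ 17 := by omega
      clear hfin
      interval_cases p <;> first
        | (exfalso; revert hpp; norm_num; done)
        | (exfalso; exact h13 rfl)
        | (exfalso; exact h3 rfl)
        | (refine Kummer_thirteen_lt_pow_orderOf _ 306 8 (by norm_num) ⟨12, by norm_num, by decide⟩
            (by norm_num) ?_
           decide)
        | (refine Kummer_thirteen_lt_pow_orderOf _ 306 3 (by norm_num) ⟨12, by norm_num, by decide⟩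
            (by norm_num) ?_
           decide)

end Fermat.Agent.Kummer
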