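import Mathlib
import Fermat.Agent.Kummer.PIDLib

/-!
# `ℤ[ζ₇]` is a PID  (piece B of the Kummer plan, p = 7)
-/

set_option autoImplicit false

namespace Fermat.Agent.Kummer

open NumberField Polynomial InfinitePlace Nat Real IsCyclotomicExtension.Rat Ideal

universe u

variable (K : Type u) [Field K] [NumberField K]

/-- The Minkowski bound of `ℚ(ζ₇)` is `< 5`. -/
theorem Kummer_minkowski_seven [IsCyclotomicExtension {7} ℚ K] :
    ⌊(4 / π) ^ nrComplexPlaces K *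
      ((Module.finrank ℚ K)! / (Module.finrank ℚ K) ^ (Module.finrank ℚ K) *
        √|(discr K : ℝ)|)⌋₊ ≤ 4 := by
  have : Fact (Nat.Prime 7) := ⟨by norm_num⟩
  rw [discr_prime 7 K, IsCyclotomicExtension.finrank (n := 7) K
    (Polynomial.cyclotomic.irreducible_rat (by norm_num)), nrComplexPlaces_eq_totient_div_two 7,
    totient_prime (by norm_num : Nat.Prime 7)]
  have h6 : (6 : ℕ)! = 720 := by decide
  simp only [show (7 - 1 : ℕ) = 6 from rfl, show (6 / 2 : ℕ) = 3 from rfl,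
    show (7 - 2 : ℕ) = 5 from rfl, h6]
  have hsq : √|(((-1 : ℤ) ^ 3 * ((7 : ℕ) : ℤ) ^ 5 : ℤ) : ℝ)| ≤ 129.65 := by
    rw [Real.sqrt_le_left (by norm_num)]
    norm_num [abs_of_nonneg]
  have hpi : (4 / π : ℝ) ≤ 4 / 3.14 := by
    have := pi_gt_d2
    gcongr
  have hpos : (0 : ℝ) ≤ 4 / π := by positivity
  have key : (4 / π) ^ 3 * (((720 : ℕ) : ℝ) / ((6 : ℕ) : ℝ) ^ 6 *
      √|(((-1 : ℤ) ^ 3 * ((7 : ℕ) : ℤ) ^ 5 : ℤ) : ℝ)|) < 5 := by
    calc (4 / π) ^ 3 * (((720 : ℕ) : ℝ) / ((6 : ℕ) : ℝ) ^ 6 *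
          √|(((-1 : ℤ) ^ 3 * ((7 : ℕ) : ℤ) ^ 5 : ℤ) : ℝ)|)
        ≤ (4 / 3.14) ^ 3 * (((720 : ℕ) : ℝ) / ((6 : ℕ) : ℝ) ^ 6 * 129.65) := by
          gcongr
      _ < 5 := by norm_num
  have h5 : ⌊(4 / π) ^ 3 * (((720 : ℕ) : ℝ) / ((6 : ℕ) : ℝ) ^ 6 *
      √|(((-1 : ℤ) ^ 3 * ((7 : ℕ) : ℤ) ^ 5 : ℤ) : ℝ)|)⌋₊ < 5 :=
    (Nat.floor_lt (by positivity)).mpr (by exact_mod_cast key)
  exact Nat.lt_succ_iff.mp h5

/-- `ℤ[ζ₇]` is a principal ideal domain. -/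
theorem pid_seven [IsCyclotomicExtension {7} ℚ K] : IsPrincipalIdealRing (𝓞 K) := by
  have : Fact (Nat.Prime 7) := ⟨by norm_num⟩
  have : IsGalois ℚ K := IsCyclotomicExtension.isGalois {7} ℚ K
  apply RingOfIntegers.isPrincipalIdealRing_of_isPrincipal_of_lt_or_isPrincipal_of_mem_primesOver_of_mem_Icc
  intro p hp hpp
  have hM := Kummer_minkowski_seven K
  have hp4 : p ≤ 4 := (Finset.mem_Icc.mp hp).2.trans hM
  have : Fact p.Prime := ⟨hpp⟩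
  obtain ⟨⟨P, hP1, hP2⟩⟩ := (span {(p : ℤ)}).nonempty_primesOver (S := 𝓞 K)
  refine ⟨P, ⟨hP1, hP2⟩, Or.inl ?_⟩
  have hnd : ¬ p ∣ 7 := by
    intro h
    have := (Nat.prime_dvd_prime_iff_eq hpp (by norm_num)).mp h
    omega
  rw [inertiaDeg_eq_of_not_dvd p K P hnd]
  refine lt_of_le_of_lt hM ?_
  have h2 : 2 ≤ p := hpp.two_le
  clear hM hp hP1 hP2
  interval_cases p <;> first
    | (exfalso; revert hpp; norm_num; done)
    | (refine Kummer_lt_pow_orderOf _ 4 (by norm_num) ⟨6, by norm_num, by decide⟩ ?_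
       decide)

end Fermat.Agent.Kummer
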